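import Mathlib
import Fermat.Agent.S30.Haupt.Base

/-!
# S36, coordinate package: certified coefficients of `Δ` and `E₄` up to `q^24`
-/

set_option autoImplicit false

noncomputable section

namespace Fermat.Agent.S36.Coord.Cert

open PowerSeries ModularCurve
open Fermat.Agent.S28.SturmDep Fermat.Agent.S28.SturmMF
open Fermat.Agent.S30.Haupt.Trunc Fermat.Agent.S30.Haupt.Base

theorem agree_etaProd25 : Agree 25 etaProd
    [1, -1, -1, 0, 0, 1, 0, 1, 0, 0, 0, 0, -1, 0, 0, -1, 0, 0, 0, 0, 0, 0, 1, 0, 0] := by
  have h : Agree 25 etaProd (letaPartial 25 24) := by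
    intro i hi
    rw [coeff_etaProd 24 i (by omega)]
    exact agree_etaPartial 25 24 i hi
  exact h.of_eq (by decide +kernel)

theorem agree_eta3_25 : Agree 25 (etaProd ^ 3)
    [1, -3, 0, 5, 0, 0, -7, 0, 0, 0, 9, 0, 0, 0, 0, -11, 0, 0, 0, 0, 0, 13, 0, 0, 0] :=
  (agree_etaProd25.pow 3).of_eq (by decide +kernel)

theorem agree_eta6_25 : Agree 25 (etaProd ^ 6)
    [1, -6, 9, 10, -30, 0, 11, 42, 0, -70, 18, -54, 49, 90, 0, -22, -60, 0, -110, 0, 81, 180,
      -78, 0, 130] :=
  ((agree_eta3_25.pow 2).congr (by ring)).of_eq (by decide +kernel)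

theorem agree_eta12_25 : Agree 25 (etaProd ^ 12)
    [1, -12, 54, -88, -99, 540, -418, -648, 594, 836, 1056, -4104, -209, 4104, -594, 4256,
      -6480, -4752, -298, 5016, 17226, -12100, -5346, -1296, -9063] :=
  ((agree_eta6_25.pow 2).congr (by ring)).of_eq (by decide +kernel)

theorem agree_eta24_25 : Agree 25 dedekindEtaUnit
    [1, -24, 252, -1472, 4830, -6048, -16744, 84480, -113643, -115920, 534612, -370944,
      -577738, 401856, 1217160, 987136, -6905934, 2727432, 10661420, -7109760, -4219488,
      -12830688, 18643272, 21288960, -25499225] :=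
  ((agree_eta12_25.pow 2).congr (by rw [dedekindEtaUnit]; ring)).of_eq (by decide +kernel)

/-- the coefficients of `Δ` up to `q^24` -/
theorem agree_deltaQ25 : Agree 25 deltaQ
    [0, 1, -24, 252, -1472, 4830, -6048, -16744, 84480, -113643, -115920, 534612, -370944,
      -577738, 401856, 1217160, 987136, -6905934, 2727432, 10661420, -7109760, -4219488,
      -12830688, 18643272, 21288960] :=
  ((agree_X 25).mul (agree_eta24_25.map (Int.castRingHom ℚ))).of_eq (by decide +kernel)

theorem agree_eisenstein4_25 : Agree 25 eisenstein4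
    [1, 240, 2160, 6720, 17520, 30240, 60480, 82560, 140400, 181680, 272160, 319680, 490560,
      527520, 743040, 846720, 1123440, 1179360, 1635120, 1646400, 2207520, 2311680, 2877120,
      2920320, 3931200] := by
  intro i hi
  rw [eisenstein4, coeff_mk]
  interval_cases i <;> decide +kernel

/-- the coefficients of `E₄` up to `q^24` -/
theorem agree_e4Q25 : Agree 25 e4Q
    [1, 240, 2160, 6720, 17520, 30240, 60480, 82560, 140400, 181680, 272160, 319680, 490560,
      527520, 743040, 846720, 1123440, 1179360, 1635120, 1646400, 2207520, 2311680, 2877120,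
      2920320, 3931200] :=
  agree_eisenstein4_25.map (Int.castRingHom ℚ)

theorem dedekindPsi_four : dedekindPsi 4 = 6 := by
  decide +kernel

theorem dedekindPsi_nine : dedekindPsi 9 = 12 := by
  decide +kernel

theorem index_Gamma0_four : (CongruenceSubgroup.Gamma0 4).index = 6 := by
  rw [Fermat.Agent.Lib.Gamma0Count.index_Gamma0 4 (by norm_num), dedekindPsi_four]

theorem index_Gamma0_nine : (CongruenceSubgroup.Gamma0 9).index = 12 := by
  rw [Fermat.Agent.Lib.Gamma0Count.index_Gamma0 9 (by norm_num), dedekindPsi_nine]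

end Fermat.Agent.S36.Coord.Cert
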