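import Mathlib
import Fermat.Prelude.Def_ModularCurve_X0
import Fermat.Agent.S24.DiffLaurent

/-!
# S36, coordinate package: the formal derivation `θ = q d/dq` on Laurent series

* `theta : Derivation K (LaurentSeries K) (LaurentSeries K)`, `theta_coeff`;
* `theta_qExpand` : chain rule for `q ↦ q ^ d`;
* `eq_C_of_qExpand_eq` : a Laurent series with `r(q ^ d) = r(q)`, `d > 1`, is constant;
* `Lead f a c` : `f = q ^ a (c + O(q))`, with its calculus (`mul`, `pow`, `inv`, `div`, `add_of_lt`,
  `theta`, `qExpand`).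
-/

set_option autoImplicit false

noncomputable section

namespace Fermat.Agent.S36.Coord.Theta

open HahnSeries ModularCurve

variable {K : Type*} [Field K]

/-- `θ = q d/dq` on Laurent series. -/
def theta : Derivation K (LaurentSeries K) (LaurentSeries K) where
  toFun f := single (1 : ℤ) (1 : K) * LaurentSeries.derivative K f
  map_add' f g := by rw [map_add, mul_add]
  map_smul' c f := by
    simp only [RingHom.id_apply]
    have h := (Fermat.Agent.S24.DiffLaurent.laurentDerivation (K := K)).map_smul c f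
    rw [Fermat.Agent.S24.DiffLaurent.laurentDerivation_apply,
      Fermat.Agent.S24.DiffLaurent.laurentDerivation_apply] at h
    rw [h]
    ext n
    rw [HahnSeries.coeff_single_mul, HahnSeries.coeff_smul, HahnSeries.coeff_smul,
      HahnSeries.coeff_single_mul]
    simp only [smul_eq_mul]
    ring
  map_one_eq_zero' := by
    show single (1 : ℤ) (1 : K) * LaurentSeries.derivative K 1 = 0
    rw [Fermat.Agent.S24.DiffLaurent.derivative_one, mul_zero]
  leibniz' f g := by
    show single (1 : ℤ) (1 : K) * LaurentSeries.derivative K (f * g)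
      = f • (single (1 : ℤ) (1 : K) * LaurentSeries.derivative K g)
        + g • (single (1 : ℤ) (1 : K) * LaurentSeries.derivative K f)
    rw [Fermat.Agent.S24.DiffLaurent.derivative_mul, smul_eq_mul, smul_eq_mul]
    ring

theorem theta_apply (f : LaurentSeries K) :
    theta f = single (1 : ℤ) (1 : K) * LaurentSeries.derivative K f := rfl

theorem theta_coeff (f : LaurentSeries K) (n : ℤ) :
    (theta f).coeff n = (n : K) * f.coeff n := by
  rw [theta_apply, HahnSeries.coeff_single_mul, one_mul,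
    Fermat.Agent.S24.DiffLaurent.derivative_coeff, sub_add_cancel]

/-- Chain rule for `q ↦ q ^ d`. -/
theorem theta_qExpand (d : ℕ) [NeZero d] (f : LaurentSeries K) :
    theta (qExpand K d f) = HahnSeries.C (d : K) * qExpand K d (theta f) := by
  ext n
  rw [theta_coeff, HahnSeries.C_mul_eq_smul, HahnSeries.coeff_smul, smul_eq_mul]
  by_cases hdn : (d : ℤ) ∣ n
  · obtain ⟨k, rfl⟩ := hdn
    rw [qExpand_coeff_mul, qExpand_coeff_mul, theta_coeff]
    push_cast
    ring
  · rw [qExpand_coeff_of_not_dvd d _ hdn, qExpand_coeff_of_not_dvd d _ hdn, mul_zero, mul_zero]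

/-- A Laurent series invariant under `q ↦ q ^ d` (`d > 1`) is a constant. -/
theorem eq_C_of_qExpand_eq (d : ℕ) [NeZero d] (hd : 1 < d) (r : LaurentSeries K)
    (h : qExpand K d r = r) : r = HahnSeries.C (r.coeff 0) := by
  have key : ∀ m : ℕ, ∀ n : ℤ, n.natAbs = m → n ≠ 0 → r.coeff n = 0 := by
    intro m
    induction m using Nat.strong_induction_on with
    | _ m ih =>
      intro n hnm hn
      rw [← h]
      by_cases hdn : (d : ℤ) ∣ n
      · obtain ⟨k, rfl⟩ := hdn
        rw [qExpand_coeff_mul]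
        have hk : k ≠ 0 := by
          rintro rfl
          exact hn (mul_zero _)
        refine ih k.natAbs ?_ k rfl hk
        rw [← hnm, Int.natAbs_mul, Int.natAbs_natCast]
        have hk' : 0 < k.natAbs := Int.natAbs_pos.mpr hk
        nlinarith
      · exact qExpand_coeff_of_not_dvd d _ hdn
  ext n
  rw [HahnSeries.C_apply, HahnSeries.coeff_single]
  by_cases hn : n = 0
  · rw [if_pos hn, hn]
  · rw [if_neg hn]
    exact key _ n rfl hn

/-! ### Leading terms -/

/-- `f = q ^ a (c + O(q))`. -/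
def Lead (f : LaurentSeries K) (a : ℤ) (c : K) : Prop :=
  f.coeff a = c ∧ ∀ n : ℤ, n < a → f.coeff n = 0

theorem coeff_single_mul_ofPowerSeries (a : ℤ) (P : PowerSeries K) (i : ℕ) :
    (single a (1 : K) * ofPowerSeries ℤ K P).coeff (a + i) = PowerSeries.coeff i P := by
  rw [HahnSeries.coeff_single_mul, one_mul, add_sub_cancel_left, ofPowerSeries_apply_coeff]

theorem coeff_single_mul_ofPowerSeries_of_lt (a : ℤ) (P : PowerSeries K) {n : ℤ} (hn : n < a) :
    (single a (1 : K) * ofPowerSeries ℤ K P).coeff n = 0 := by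
  rw [HahnSeries.coeff_single_mul, one_mul]
  exact ofPowerSeries_coeff_of_neg _ (by omega)

theorem lead_single_mul (a : ℤ) (P : PowerSeries K) :
    Lead (single a (1 : K) * ofPowerSeries ℤ K P) a (PowerSeries.constantCoeff P) := by
  refine ⟨?_, fun n hn => coeff_single_mul_ofPowerSeries_of_lt a P hn⟩
  have h := coeff_single_mul_ofPowerSeries a P 0
  rw [Nat.cast_zero, add_zero] at h
  rw [h, PowerSeries.coeff_zero_eq_constantCoeff]

/-- The power series `∑ f_{a+i} qⁱ`. -/
def shiftPart (f : LaurentSeries K) (a : ℤ) : PowerSeries K :=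
  PowerSeries.mk fun i => f.coeff (a + i)

theorem Lead.eq_single_mul {f : LaurentSeries K} {a : ℤ} {c : K} (h : Lead f a c) :
    f = single a (1 : K) * ofPowerSeries ℤ K (shiftPart f a) := by
  ext n
  rcases lt_or_ge n a with hn | hn
  · rw [h.2 n hn, coeff_single_mul_ofPowerSeries_of_lt a _ hn]
  · obtain ⟨i, rfl⟩ : ∃ i : ℕ, n = a + i := ⟨(n - a).toNat, by omega⟩
    rw [coeff_single_mul_ofPowerSeries, shiftPart, PowerSeries.coeff_mk]

theorem Lead.constantCoeff_shiftPart {f : LaurentSeries K} {a : ℤ} {c : K} (h : Lead f a c) :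
    PowerSeries.constantCoeff (shiftPart f a) = c := by
  rw [← PowerSeries.coeff_zero_eq_constantCoeff, shiftPart, PowerSeries.coeff_mk, Nat.cast_zero,
    add_zero, h.1]

theorem lead_iff {f : LaurentSeries K} {a : ℤ} {c : K} :
    Lead f a c ↔ ∃ P : PowerSeries K, PowerSeries.constantCoeff P = c ∧
      f = single a (1 : K) * ofPowerSeries ℤ K P := by
  constructor
  · intro h
    exact ⟨shiftPart f a, h.constantCoeff_shiftPart, h.eq_single_mul⟩
  · rintro ⟨P, rfl, rfl⟩
    exact lead_single_mul a P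

theorem Lead.coeff {f : LaurentSeries K} {a : ℤ} {c : K} (h : Lead f a c) : f.coeff a = c := h.1

theorem Lead.unique {f : LaurentSeries K} {a : ℤ} {c c' : K} (h : Lead f a c) (h' : Lead f a c') :
    c = c' := h.1.symm.trans h'.1

theorem Lead.ne_zero {f : LaurentSeries K} {a : ℤ} {c : K} (h : Lead f a c) (hc : c ≠ 0) :
    f ≠ 0 := by
  rintro rfl
  exact hc (h.1.symm.trans (HahnSeries.coeff_zero))

theorem Lead.mul {f g : LaurentSeries K} {a b : ℤ} {c d : K} (hf : Lead f a c) (hg : Lead g b d) :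
    Lead (f * g) (a + b) (c * d) := by
  obtain ⟨P, rfl, rfl⟩ := lead_iff.mp hf
  obtain ⟨Q, rfl, rfl⟩ := lead_iff.mp hg
  have h : single a (1 : K) * ofPowerSeries ℤ K P * (single b (1 : K) * ofPowerSeries ℤ K Q)
      = single (a + b) (1 : K) * ofPowerSeries ℤ K (P * Q) := by
    have e1 : single (a + b) (1 : K) = single a (1 : K) * single b (1 : K) := by
      rw [HahnSeries.single_mul_single, one_mul]
    rw [map_mul, e1]
    ring
  rw [h, ← map_mul]
  exact lead_single_mul _ _

theorem lead_one : Lead (1 : LaurentSeries K) 0 1 := by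
  refine ⟨by simp, fun n hn => ?_⟩
  rw [HahnSeries.coeff_one, if_neg (by omega)]

theorem Lead.pow {f : LaurentSeries K} {a : ℤ} {c : K} (hf : Lead f a c) (n : ℕ) :
    Lead (f ^ n) (n * a) (c ^ n) := by
  induction n with
  | zero => simpa using lead_one (K := K)
  | succ n ih =>
    have := ih.mul hf
    rw [pow_succ, pow_succ]
    convert this using 1
    push_cast
    ring

theorem lead_C (c : K) : Lead (HahnSeries.C c : LaurentSeries K) 0 c := by
  refine ⟨by simp, fun n hn => ?_⟩
  rw [HahnSeries.C_apply, HahnSeries.coeff_single_of_ne (by omega)]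

theorem Lead.add_of_lt {f g : LaurentSeries K} {a b : ℤ} {c d : K} (hf : Lead f a c)
    (hg : Lead g b d) (hab : a < b) : Lead (f + g) a c := by
  refine ⟨?_, fun n hn => ?_⟩
  · rw [HahnSeries.coeff_add, hf.1, hg.2 a hab, add_zero]
  · rw [HahnSeries.coeff_add, hf.2 n hn, hg.2 n (by omega), add_zero]

theorem Lead.neg {f : LaurentSeries K} {a : ℤ} {c : K} (hf : Lead f a c) : Lead (-f) a (-c) := by
  refine ⟨?_, fun n hn => ?_⟩
  · rw [HahnSeries.coeff_neg, hf.1]
  · rw [HahnSeries.coeff_neg, hf.2 n hn, neg_zero]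

theorem Lead.sub_of_lt {f g : LaurentSeries K} {a b : ℤ} {c d : K} (hf : Lead f a c)
    (hg : Lead g b d) (hab : a < b) : Lead (f - g) a c := by
  rw [sub_eq_add_neg]
  exact hf.add_of_lt hg.neg hab

theorem Lead.add {f g : LaurentSeries K} {a : ℤ} {c d : K} (hf : Lead f a c)
    (hg : Lead g a d) : Lead (f + g) a (c + d) := by
  refine ⟨?_, fun n hn => ?_⟩
  · rw [HahnSeries.coeff_add, hf.1, hg.1]
  · rw [HahnSeries.coeff_add, hf.2 n hn, hg.2 n hn, add_zero]

theorem Lead.theta {f : LaurentSeries K} {a : ℤ} {c : K} (hf : Lead f a c) :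
    Lead (theta f) a ((a : K) * c) := by
  refine ⟨?_, fun n hn => ?_⟩
  · rw [theta_coeff, hf.1]
  · rw [theta_coeff, hf.2 n hn, mul_zero]

theorem Lead.qExpand {f : LaurentSeries K} {a : ℤ} {c : K} (hf : Lead f a c) (d : ℕ) [NeZero d] :
    Lead (qExpand K d f) (d * a) c := by
  refine ⟨?_, fun n hn => ?_⟩
  · rw [qExpand_coeff_mul, hf.1]
  · by_cases hdn : (d : ℤ) ∣ n
    · obtain ⟨k, rfl⟩ := hdn
      rw [qExpand_coeff_mul]
      refine hf.2 k ?_
      have hd : (0 : ℤ) < d := by exact_mod_cast Nat.pos_of_ne_zero (NeZero.ne d)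
      exact lt_of_mul_lt_mul_left hn hd.le
    · exact qExpand_coeff_of_not_dvd d _ hdn

theorem Lead.inv {f : LaurentSeries K} {a : ℤ} {c : K} (hf : Lead f a c) (hc : c ≠ 0) :
    Lead f⁻¹ (-a) c⁻¹ := by
  obtain ⟨P, rfl, rfl⟩ := lead_iff.mp hf
  have hP : P * P⁻¹ = 1 := PowerSeries.mul_inv_cancel P (by simpa using hc)
  have hmul : (single a (1 : K) * ofPowerSeries ℤ K P)
      * (single (-a) (1 : K) * ofPowerSeries ℤ K P⁻¹) = 1 := by
    have e1 : single a (1 : K) * single (-a) (1 : K) = 1 := by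
      rw [HahnSeries.single_mul_single, add_neg_cancel, one_mul]
      rfl
    calc (single a (1 : K) * ofPowerSeries ℤ K P) * (single (-a) (1 : K) * ofPowerSeries ℤ K P⁻¹)
        = (single a (1 : K) * single (-a) (1 : K))
          * (ofPowerSeries ℤ K P * ofPowerSeries ℤ K P⁻¹) := by ring
      _ = 1 := by rw [e1, ← map_mul, hP, map_one, one_mul]
  rw [← eq_inv_of_mul_eq_one_right hmul]
  have h := lead_single_mul (-a) P⁻¹
  rwa [PowerSeries.constantCoeff_inv] at h

theorem Lead.div {f g : LaurentSeries K} {a b : ℤ} {c d : K} (hf : Lead f a c) (hg : Lead g b d)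
    (hd : d ≠ 0) : Lead (f / g) (a - b) (c / d) := by
  rw [div_eq_mul_inv, sub_eq_add_neg, div_eq_mul_inv]
  exact hf.mul (hg.inv hd)

theorem lead_single (a : ℤ) (c : K) : Lead (single a c : LaurentSeries K) a c := by
  refine ⟨by simp, fun n hn => ?_⟩
  rw [HahnSeries.coeff_single_of_ne (by omega)]

theorem lead_ofPowerSeries (P : PowerSeries K) :
    Lead (ofPowerSeries ℤ K P) 0 (PowerSeries.constantCoeff P) := by
  have h := lead_single_mul 0 P
  have e : (single (0 : ℤ) (1 : K) : LaurentSeries K) = 1 := rfl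
  rwa [e, one_mul] at h

end Fermat.Agent.S36.Coord.Theta
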