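import Mathlib
import Fermat.Agent.S30.Haupt.MemTwo
import Fermat.Agent.S36.Coord.ThetaLead

/-!
# S36, coordinate package: the formal derivative of `j`

`(θ j)² E₄² = j² (j - 1728) Δ` as an identity of Laurent series over `ℚ` (`θ = q d/dq`).

No analysis: by implicit differentiation of `j s = (1 + 256 s)³` and `j(q²) s² = (1 + 16 s)³`
(`s = Δ(q²)/Δ(q)`), `ω = θ j` satisfies `ω(q²) s (1 + 256 s)² (512 s - 1) = ω (1 + 16 s)² (8 s - 1)`;
the right-hand side satisfies the square of the same functional equation (one Sturm identity of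
weight `16` on `Γ₀(2)`), so the quotient is invariant under `q ↦ q²`, hence constant, hence `1`.
-/

set_option autoImplicit false

noncomputable section

namespace Fermat.Agent.S36.Coord.ThetaJ

open PowerSeries ModularCurve CongruenceSubgroup
open Fermat.Agent.S28.SturmDep Fermat.Agent.S28.SturmMF
open Fermat.Agent.S30.Haupt.Trunc Fermat.Agent.S30.Haupt.Base Fermat.Agent.S30.Haupt.Two
open Fermat.Agent.S36.Coord.Theta

/-! ### The Sturm identity -/

/-- `E₄ (Δ + 16 Δ(q²)) = E₄(q²) (Δ + 256 Δ(q²))` -/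
theorem sturm_e4 :
    e4Q * (deltaQ + ((16 : ℤ) : PowerSeries ℚ) * pexp 2 deltaQ)
      = pexp 2 e4Q * (deltaQ + ((256 : ℤ) : PowerSeries ℚ) * pexp 2 deltaQ) := by
  rw [← sub_eq_zero]
  refine eq_zero_of_agree 2 16 3 index_Gamma0_two ?_ (n := 10) (by norm_num) ?_
  · refine Submodule.sub_mem _ ?_ ?_
    · exact (mfGraded 2).cast_mem (by norm_num) ((mfGraded 2).mul_mem (e4Q_mem 2)
        (Submodule.add_mem _ (deltaQ_mem 2) (intCast_mul_mem _ 16 (pexp_deltaQ_mem 2 dvd_rfl))))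
    · exact (mfGraded 2).cast_mem (by norm_num) ((mfGraded 2).mul_mem (pexp_e4Q_mem 2 dvd_rfl)
        (Submodule.add_mem _ (deltaQ_mem 2) (intCast_mul_mem _ 256 (pexp_deltaQ_mem 2 dvd_rfl))))
  · exact ((agree_e4Q.mul (agree_deltaQ.add
        ((agree_intCast 10 16).mul (agree_pexp agree_deltaQ 2)))).sub
      ((agree_pexp agree_e4Q 2).mul (agree_deltaQ.add
        ((agree_intCast 10 256).mul (agree_pexp agree_deltaQ 2))))).of_eq
      (by decide +kernel)

/-! ### Notation and leading terms -/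

/-- `Δ` in `ℚ((q))` -/
abbrev DeltaL : LaurentSeries ℚ := Graded.emb deltaQ

/-- `E₄` in `ℚ((q))` -/
abbrev E4L : LaurentSeries ℚ := Graded.emb e4Q

theorem lead_jq : Lead jq (-1) 1 := by
  have h := lead_single_mul (K := ℚ) (-1) jNumQ
  rwa [constantCoeff_jNumQ] at h

theorem lead_ofNat (n : ℕ) [n.AtLeastTwo] :
    Lead (OfNat.ofNat n : LaurentSeries ℚ) 0 (OfNat.ofNat n) := by
  have h := lead_C (K := ℚ) (OfNat.ofNat n)
  rwa [map_ofNat] at h

theorem lead_jq_sub : Lead (jq - 1728) (-1) 1 :=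
  lead_jq.sub_of_lt (lead_ofNat 1728) (by norm_num)

theorem lead_DeltaL : Lead DeltaL 1 1 := by
  have h := lead_single_mul (K := ℚ) 1 (dedekindEtaUnit.map (Int.castRingHom ℚ))
  have e : DeltaL = HahnSeries.single (1 : ℤ) (1 : ℚ)
      * HahnSeries.ofPowerSeries ℤ ℚ (dedekindEtaUnit.map (Int.castRingHom ℚ)) := by
    rw [DeltaL, deltaQ, map_mul, HahnSeries.ofPowerSeries_X]
  rw [e]
  convert h using 1
  rw [← coeff_zero_eq_constantCoeff_apply, coeff_map, coeff_zero_eq_constantCoeff_apply,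
    constantCoeff_dedekindEtaUnit]
  simp

theorem lead_E4L : Lead E4L 0 1 := by
  have h := lead_ofPowerSeries (K := ℚ) e4Q
  convert h using 1
  have h0 := agree_e4Q.coeff_eq 0 (by norm_num) 1 rfl
  rw [← coeff_zero_eq_constantCoeff_apply, h0]
  simp

theorem lead_s2 : Lead s2 1 1 := by
  have h2 : Lead (s2 * DeltaL) 2 1 := by
    rw [s2_mul]
    simpa using lead_DeltaL.qExpand 2
  have h3 := h2.div lead_DeltaL one_ne_zero
  rw [mul_div_assoc, div_self (lead_DeltaL.ne_zero one_ne_zero), mul_one] at h3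
  simpa using h3

theorem s2_ne_zero : s2 ≠ 0 := lead_s2.ne_zero one_ne_zero

theorem DeltaL_ne_zero : DeltaL ≠ 0 := lead_DeltaL.ne_zero one_ne_zero

theorem E4L_ne_zero : E4L ≠ 0 := lead_E4L.ne_zero one_ne_zero

theorem jq_sub_ne_zero : jq - 1728 ≠ 0 := lead_jq_sub.ne_zero one_ne_zero

/-! ### Derivation rules in ring form -/

theorem theta_mul (a b : LaurentSeries ℚ) : theta (a * b) = a * theta b + b * theta a := by
  rw [Derivation.leibniz, smul_eq_mul, smul_eq_mul]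

theorem theta_sq (a : LaurentSeries ℚ) : theta (a ^ 2) = 2 * a * theta a := by
  rw [pow_two, theta_mul]
  ring

theorem theta_cube (a : LaurentSeries ℚ) : theta (a ^ 3) = 3 * a ^ 2 * theta a := by
  rw [pow_succ, theta_mul, theta_sq]
  ring

theorem theta_ofNat (n : ℕ) [n.AtLeastTwo] : theta (OfNat.ofNat n : LaurentSeries ℚ) = 0 := by
  have h := (theta (K := ℚ)).map_natCast n
  exact (congrArg (theta (K := ℚ))
    (Nat.cast_ofNat (R := LaurentSeries ℚ) (n := n)).symm).trans h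

theorem theta_one : theta (1 : LaurentSeries ℚ) = 0 := (theta (K := ℚ)).map_one_eq_zero

/-! ### The relations in `ℚ((q))` -/

/-- `E₄ (1 + 16 s) = E₄(q²) (1 + 256 s)` -/
theorem e4_rel : E4L * (1 + 16 * s2) = qExpand ℚ 2 E4L * (1 + 256 * s2) := by
  have h := congrArg Graded.emb sturm_e4
  simp only [map_mul, map_add, emb_pexp, intCast_emb] at h
  rw [← s2_mul] at h
  have h3 : DeltaL * (E4L * (1 + 16 * s2) - qExpand ℚ 2 E4L * (1 + 256 * s2)) = 0 := by
    push_cast at h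
    linear_combination h
  rcases mul_eq_zero.mp h3 with h | h
  · exact absurd h DeltaL_ne_zero
  · exact sub_eq_zero.mp h

/-- `(j(q²) - 1728) s² = (1 + 64 s) (1 - 8 s)²` -/
theorem jq2_sub_mul_s2 :
    (qExpand ℚ 2 jq - 1728) * s2 ^ 2 = (1 + 64 * s2) * (1 - 8 * s2) ^ 2 := by
  linear_combination jq2_mul_s2

theorem one_add_256_ne_zero : 1 + 256 * s2 ≠ 0 := by
  intro h
  have h1 := jq_mul_s2
  rw [h, zero_pow (by norm_num)] at h1
  exact mul_ne_zero jq_ne_zero s2_ne_zero h1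

theorem s512_sub_one_ne_zero : 512 * s2 - 1 ≠ 0 := by
  intro h
  have h1 := jq_sub_mul_s2
  have h2 : (1 : LaurentSeries ℚ) - 512 * s2 = 0 := by linear_combination -h
  rw [h2, zero_pow (by norm_num), mul_zero] at h1
  exact mul_ne_zero jq_sub_ne_zero s2_ne_zero h1

/-- Implicit differentiation of `j s = (1 + 256 s)³`. -/
theorem theta_jq_mul :
    theta jq * s2 ^ 2 = theta s2 * ((1 + 256 * s2) ^ 2 * (512 * s2 - 1)) := by
  have d3 := congrArg (theta (K := ℚ)) jq_mul_s2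
  rw [theta_mul, theta_cube, map_add, theta_one, theta_mul, theta_ofNat] at d3
  linear_combination s2 * d3 - theta s2 * jq_mul_s2

/-- Implicit differentiation of `j(q²) s² = (1 + 16 s)³`. -/
theorem theta_jq2_mul :
    qExpand ℚ 2 (theta jq) * s2 ^ 3 = theta s2 * ((1 + 16 * s2) ^ 2 * (8 * s2 - 1)) := by
  have d5 := congrArg (theta (K := ℚ)) jq2_mul_s2
  rw [theta_mul, theta_cube, map_add, theta_one, theta_mul, theta_ofNat, theta_sq,
    theta_qExpand] at d5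
  have hC : (HahnSeries.C ((2 : ℕ) : ℚ) : LaurentSeries ℚ) = 2 := by
    rw [Nat.cast_ofNat, map_ofNat]
  rw [hC] at d5
  have h2 : (2 : LaurentSeries ℚ) * (qExpand ℚ 2 (theta jq) * s2 ^ 3
      - theta s2 * ((1 + 16 * s2) ^ 2 * (8 * s2 - 1))) = 0 := by
    linear_combination s2 * d5 - 2 * theta s2 * jq2_mul_s2
  rcases mul_eq_zero.mp h2 with h | h
  · exact absurd h ((lead_ofNat 2).ne_zero (by norm_num))
  · exact sub_eq_zero.mp h

/-- The functional equation of `ω = θ j`. -/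
theorem theta_jq_fe :
    qExpand ℚ 2 (theta jq) * s2 * (1 + 256 * s2) ^ 2 * (512 * s2 - 1)
      = theta jq * (1 + 16 * s2) ^ 2 * (8 * s2 - 1) := by
  have h : s2 ^ 2 * (qExpand ℚ 2 (theta jq) * s2 * (1 + 256 * s2) ^ 2 * (512 * s2 - 1)
      - theta jq * (1 + 16 * s2) ^ 2 * (8 * s2 - 1)) = 0 := by
    linear_combination ((1 + 256 * s2) ^ 2 * (512 * s2 - 1)) * theta_jq2_mul
      - ((1 + 16 * s2) ^ 2 * (8 * s2 - 1)) * theta_jq_mul
  rcases mul_eq_zero.mp h with h | h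
  · exact absurd (pow_eq_zero_iff (n := 2) (by norm_num) |>.mp h) s2_ne_zero
  · exact sub_eq_zero.mp h

/-! ### The main identity -/

/-- the numerator `(θ j)² E₄²` -/
def numJ : LaurentSeries ℚ := theta jq ^ 2 * E4L ^ 2

/-- the denominator `j² (j - 1728) Δ` -/
def denJ : LaurentSeries ℚ := jq ^ 2 * (jq - 1728) * DeltaL

theorem lead_numJ : Lead numJ (-2) 1 := by
  have h := (lead_jq.theta.pow 2).mul (lead_E4L.pow 2)
  rw [numJ]
  convert h using 1 <;> norm_num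

theorem lead_denJ : Lead denJ (-2) 1 := by
  have h := ((lead_jq.pow 2).mul lead_jq_sub).mul lead_DeltaL
  rw [denJ]
  convert h using 1 <;> norm_num

theorem denJ_ne_zero : denJ ≠ 0 := lead_denJ.ne_zero one_ne_zero

theorem qExpand_numJ_mul :
    qExpand ℚ 2 numJ * denJ = numJ * qExpand ℚ 2 denJ := by
  have hfac : s2 ^ 5 * (1 + 256 * s2) ^ 6 * (512 * s2 - 1) ^ 2 ≠ 0 :=
    mul_ne_zero (mul_ne_zero (pow_ne_zero 5 s2_ne_zero) (pow_ne_zero 6 one_add_256_ne_zero))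
      (pow_ne_zero 2 s512_sub_one_ne_zero)
  have hD2 : qExpand ℚ 2 DeltaL = s2 * DeltaL := s2_mul.symm
  have e1 : qExpand ℚ 2 numJ = qExpand ℚ 2 (theta jq) ^ 2 * qExpand ℚ 2 E4L ^ 2 := by
    rw [numJ, map_mul, map_pow, map_pow]
  have e2 : qExpand ℚ 2 denJ = qExpand ℚ 2 jq ^ 2 * (qExpand ℚ 2 jq - 1728) * (s2 * DeltaL) := by
    rw [denJ, map_mul, map_mul, map_pow, map_sub, map_ofNat, hD2]
  refine mul_right_cancel₀ hfac ?_
  rw [e1, e2, numJ, denJ]
  calc qExpand ℚ 2 (theta jq) ^ 2 * qExpand ℚ 2 E4L ^ 2 * (jq ^ 2 * (jq - 1728) * DeltaL)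
        * (s2 ^ 5 * (1 + 256 * s2) ^ 6 * (512 * s2 - 1) ^ 2)
      = (qExpand ℚ 2 (theta jq) * s2 * (1 + 256 * s2) ^ 2 * (512 * s2 - 1)) ^ 2
        * (qExpand ℚ 2 E4L * (1 + 256 * s2)) ^ 2 * (jq * s2) ^ 2 * ((jq - 1728) * s2)
        * DeltaL := by ring
    _ = (theta jq * (1 + 16 * s2) ^ 2 * (8 * s2 - 1)) ^ 2
        * (E4L * (1 + 16 * s2)) ^ 2 * ((1 + 256 * s2) ^ 3) ^ 2
        * ((1 + 64 * s2) * (1 - 512 * s2) ^ 2) * DeltaL := by
      rw [theta_jq_fe, ← e4_rel, jq_mul_s2, jq_sub_mul_s2]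
    _ = theta jq ^ 2 * E4L ^ 2 * (((1 + 16 * s2) ^ 3) ^ 2 * ((1 + 64 * s2) * (1 - 8 * s2) ^ 2)
        * DeltaL) * ((1 + 256 * s2) ^ 6 * (512 * s2 - 1) ^ 2) := by ring
    _ = theta jq ^ 2 * E4L ^ 2 * ((qExpand ℚ 2 jq * s2 ^ 2) ^ 2
        * ((qExpand ℚ 2 jq - 1728) * s2 ^ 2) * DeltaL)
        * ((1 + 256 * s2) ^ 6 * (512 * s2 - 1) ^ 2) := by
      rw [jq2_mul_s2, jq2_sub_mul_s2]
    _ = theta jq ^ 2 * E4L ^ 2
        * (qExpand ℚ 2 jq ^ 2 * (qExpand ℚ 2 jq - 1728) * (s2 * DeltaL))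
        * (s2 ^ 5 * (1 + 256 * s2) ^ 6 * (512 * s2 - 1) ^ 2) := by ring

/-- **`(θ j)² E₄² = j² (j - 1728) Δ`** in `ℚ((q))`. -/
theorem theta_jq_sq : theta jq ^ 2 * E4L ^ 2 = jq ^ 2 * (jq - 1728) * DeltaL := by
  have hD := denJ_ne_zero
  have hD2 : qExpand ℚ 2 denJ ≠ 0 := (map_ne_zero (qExpand ℚ 2)).mpr hD
  have hr : qExpand ℚ 2 (numJ / denJ) = numJ / denJ := by
    rw [map_div₀, div_eq_div_iff hD2 hD]
    exact qExpand_numJ_mul
  have hc := eq_C_of_qExpand_eq 2 (by norm_num) _ hr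
  set c : ℚ := (numJ / denJ).coeff 0 with hcdef
  have hN : numJ = HahnSeries.C c * denJ := by
    rw [← hc, div_mul_cancel₀ _ hD]
  have hl : Lead numJ (-2) (c * 1) := by
    rw [hN]
    simpa using (lead_C c).mul lead_denJ
  have hc1 : c = 1 := by
    have := hl.unique lead_numJ
    simpa using this
  rw [hc1, map_one, one_mul] at hN
  exact hN

end Fermat.Agent.S36.Coord.ThetaJ
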