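import Mathlib
import Fermat.Agent.S36.Coord.Cert
import Fermat.Agent.S36.Coord.ThetaJ

/-!
# S36, coordinate package: the Hauptmodul `u4 = (η(q)/η(q⁴))⁸` of `Γ₀(4)`

With `s = Δ(q²)/Δ(q)` (`= Haupt.Two.s2`) and `s' = s(q²) = Δ(q⁴)/Δ(q²)`:

* `u4 := (s - 16 s') / (s' (1 + 16 s)) = q⁻¹ - 8 + 20 q - …`  (rational in landed objects);
* `u4_sq : u4² s = u4 + 16`,  `u4_mul_s4 : u4 (u4 + 16) s' = 1`;
* `jq_mul_u4 : j u4⁴ (u4 + 16) = (u4² + 256 u4 + 4096)³`;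
* `jq_sub_mul_u4 : (j - 1728) u4⁴ (u4 + 16) = (u4 + 32)² (u4² - 512 u4 - 8192)²`;
* `theta_u4_pow : (θ u4)¹² = u4⁴ (u4 + 16)¹⁰ Δ²`   (`θ = q d/dq`);
* `u4_mem_full : u4 ∈ modularFunctionFieldFull M` for `4 ∣ M`.

`Γ₀(4)` has no elliptic points: the only branch values of `u4 ↦ j` are the cusp values
`u4 = 0, -16, ∞`.  One Sturm identity of weight `48` on `Γ₀(4)` (`25` coefficients).
-/

set_option autoImplicit false

noncomputable section

namespace Fermat.Agent.S36.Coord.Four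

open PowerSeries ModularCurve CongruenceSubgroup
open Fermat.Agent.S28.SturmDep Fermat.Agent.S28.SturmMF
open Fermat.Agent.S30.Haupt.Trunc Fermat.Agent.S30.Haupt.Base Fermat.Agent.S30.Haupt.Two
open Fermat.Agent.S36.Coord.Theta Fermat.Agent.S36.Coord.ThetaJ Fermat.Agent.S36.Coord.Cert

/-! ### The Sturm identity -/

local notation "a" => deltaQ
local notation "b" => pexp 2 deltaQ
local notation "c" => pexp 4 deltaQ
local notation "ic" k => ((k : ℤ) : PowerSeries ℚ)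

theorem mem_b : b ∈ (mfGraded 4).M 12 := pexp_deltaQ_mem 4 (by norm_num)

theorem mem_c : c ∈ (mfGraded 4).M 12 := pexp_deltaQ_mem 4 dvd_rfl

/-- `(Δ(q²)² - 16 Δ Δ(q⁴))² = Δ Δ(q⁴) (Δ + 16 Δ(q²)) (Δ(q²) + 256 Δ(q⁴))` -/
theorem sturm_four :
    (b ^ 2 - (ic 16) * (a * c)) ^ 2 = a * c * (a + (ic 16) * b) * (b + (ic 256) * c) := by
  rw [← sub_eq_zero]
  refine eq_zero_of_agree 4 48 6 index_Gamma0_four ?_ (n := 25) (by norm_num) ?_
  · refine Submodule.sub_mem _ ?_ ?_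
    · exact (mfGraded 4).cast_mem (by norm_num) ((mfGraded 4).pow_mem
        (Submodule.sub_mem _ ((mfGraded 4).cast_mem (by norm_num) ((mfGraded 4).pow_mem mem_b 2))
          (intCast_mul_mem _ 16 ((mfGraded 4).mul_mem (deltaQ_mem 4) mem_c))) 2)
    · exact (mfGraded 4).cast_mem (by norm_num) ((mfGraded 4).mul_mem
        ((mfGraded 4).mul_mem ((mfGraded 4).mul_mem (deltaQ_mem 4) mem_c)
          (Submodule.add_mem _ (deltaQ_mem 4) (intCast_mul_mem _ 16 mem_b)))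
        (Submodule.add_mem _ mem_b (intCast_mul_mem _ 256 mem_c)))
  · have ha := agree_deltaQ25
    have hb := agree_pexp agree_deltaQ25 2
    have hc := agree_pexp agree_deltaQ25 4
    exact ((((hb.pow 2).sub ((agree_intCast 25 16).mul (ha.mul hc))).pow 2).sub
      (((ha.mul hc).mul (ha.add ((agree_intCast 25 16).mul hb))).mul
        (hb.add ((agree_intCast 25 256).mul hc)))).of_eq (by decide +kernel)

/-! ### `s' = Δ(q⁴)/Δ(q²)` and the relation between `s` and `s'` -/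

/-- `s' = Δ(q⁴)/Δ(q²)` -/
def s4 : LaurentSeries ℚ := qExpand ℚ 2 s2

theorem s4_mul : s4 * (s2 * DeltaL) = qExpand ℚ 4 DeltaL := by
  have h := congrArg (qExpand ℚ 2) s2_mul
  rw [map_mul, qExpand_qExpand] at h
  rw [s4, s2_mul, h]

theorem lead_s4 : Lead s4 2 1 := by
  rw [s4]
  simpa using lead_s2.qExpand 2

theorem s4_ne_zero : s4 ≠ 0 := lead_s4.ne_zero one_ne_zero

/-- **`(s - 16 s')² = s' (1 + 16 s) (1 + 256 s')`** -/
theorem s_rel : (s2 - 16 * s4) ^ 2 = s4 * (1 + 16 * s2) * (1 + 256 * s4) := by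
  have h := congrArg Graded.emb sturm_four
  simp only [map_mul, map_add, map_sub, map_pow, emb_pexp, intCast_emb] at h
  rw [← s4_mul, ← s2_mul] at h
  have h3 : DeltaL ^ 4 * s2 ^ 2
      * ((s2 - 16 * s4) ^ 2 - s4 * (1 + 16 * s2) * (1 + 256 * s4)) = 0 := by
    push_cast at h
    linear_combination h
  rcases mul_eq_zero.mp h3 with h | h
  · exact absurd h (mul_ne_zero (pow_ne_zero 4 DeltaL_ne_zero) (pow_ne_zero 2 s2_ne_zero))
  · exact sub_eq_zero.mp h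

theorem one_add_16_ne_zero : 1 + 16 * s2 ≠ 0 := by
  intro h
  have h1 := jq2_mul_s2
  rw [h, zero_pow (by norm_num)] at h1
  exact mul_ne_zero ((map_ne_zero (qExpand ℚ 2)).mpr jq_ne_zero) (pow_ne_zero 2 s2_ne_zero) h1

/-! ### The Hauptmodul -/

/-- the denominator `s' (1 + 16 s)` -/
def den4 : LaurentSeries ℚ := s4 * (1 + 16 * s2)

theorem den4_ne_zero : den4 ≠ 0 := mul_ne_zero s4_ne_zero one_add_16_ne_zero

/-- **`u4 = (η(q)/η(q⁴))⁸`**, the Hauptmodul of `Γ₀(4)` with a simple pole at `∞`, as the rational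
expression `(s - 16 s') / (s' (1 + 16 s))`. -/
def u4 : LaurentSeries ℚ := (s2 - 16 * s4) / den4

theorem u4_mul : u4 * den4 = s2 - 16 * s4 := div_mul_cancel₀ _ den4_ne_zero

theorem lead_16_mul {f : LaurentSeries ℚ} {n : ℤ} {k : ℚ} (h : Lead f n k) (m : ℕ)
    [m.AtLeastTwo] : Lead ((OfNat.ofNat m : LaurentSeries ℚ) * f) n (OfNat.ofNat m * k) := by
  simpa using (lead_ofNat m).mul h

theorem lead_den4 : Lead den4 2 1 := by
  have h1 : Lead (1 + 16 * s2) 0 1 := lead_one.add_of_lt (lead_16_mul lead_s2 16) (by norm_num)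
  simpa [den4] using lead_s4.mul h1

theorem lead_u4 : Lead u4 (-1) 1 := by
  have h1 : Lead (s2 - 16 * s4) 1 1 := lead_s2.sub_of_lt (lead_16_mul lead_s4 16) (by norm_num)
  simpa [u4] using h1.div lead_den4 one_ne_zero

theorem u4_ne_zero : u4 ≠ 0 := lead_u4.ne_zero one_ne_zero

/-- **`u4² s = u4 + 16`**, i.e. `u4² = t (u4 + 16)` for `t = Δ(q)/Δ(q²)`. -/
theorem u4_sq : u4 ^ 2 * s2 = u4 + 16 := by
  have h := u4_mul
  have hr := s_rel
  rw [den4] at h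
  have h3 : (s4 * (1 + 16 * s2)) ^ 2 * (u4 ^ 2 * s2 - (u4 + 16)) = 0 := by
    linear_combination (s2 * (u4 * (s4 * (1 + 16 * s2)) + (s2 - 16 * s4)) - s4 * (1 + 16 * s2)) * h
      + s2 * hr
  rcases mul_eq_zero.mp h3 with h | h
  · exact absurd (pow_eq_zero_iff (n := 2) (by norm_num) |>.mp h) den4_ne_zero
  · exact sub_eq_zero.mp h

/-- **`u4 (u4 + 16) s' = 1`**, i.e. `t(q²) = u4 (u4 + 16)`. -/
theorem u4_mul_s4 : u4 * (u4 + 16) * s4 = 1 := by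
  have h := u4_mul
  have hr := s_rel
  rw [den4] at h
  have h3 : (s4 * (1 + 16 * s2)) ^ 2 * (u4 * (u4 + 16) * s4 - 1) = 0 := by
    linear_combination (s4 * (u4 * (s4 * (1 + 16 * s2)) + (s2 - 16 * s4))
      + 16 * (s4 * (1 + 16 * s2)) * s4) * h + s4 * hr
  rcases mul_eq_zero.mp h3 with h | h
  · exact absurd (pow_eq_zero_iff (n := 2) (by norm_num) |>.mp h) den4_ne_zero
  · exact sub_eq_zero.mp h

theorem u4_add_ne_zero : u4 + 16 ≠ 0 := by
  intro h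
  have h1 := u4_sq
  rw [h] at h1
  exact mul_ne_zero (pow_ne_zero 2 u4_ne_zero) s2_ne_zero h1

/-! ### The relation with `j` -/

/-- **`j u4⁴ (u4 + 16) = (u4² + 256 u4 + 4096)³`** -/
theorem jq_mul_u4 : jq * (u4 ^ 4 * (u4 + 16)) = (u4 ^ 2 + 256 * u4 + 4096) ^ 3 := by
  have h1 := jq_mul_s2
  have h2 := u4_sq
  linear_combination u4 ^ 6 * h1
    + (256 * ((u4 ^ 2 + 256 * (u4 + 16)) ^ 2
        + (u4 ^ 2 + 256 * (u4 + 16)) * (u4 ^ 2 + 256 * (u4 ^ 2 * s2))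
        + (u4 ^ 2 + 256 * (u4 ^ 2 * s2)) ^ 2) - jq * u4 ^ 4) * h2

/-- **`(j - 1728) u4⁴ (u4 + 16) = (u4 + 32)² (u4² - 512 u4 - 8192)²`** -/
theorem jq_sub_mul_u4 :
    (jq - 1728) * (u4 ^ 4 * (u4 + 16)) = (u4 + 32) ^ 2 * (u4 ^ 2 - 512 * u4 - 8192) ^ 2 := by
  have h1 := jq_sub_mul_s2
  have h2 := u4_sq
  linear_combination u4 ^ 6 * h1
    + (-960 * u4 ^ 4 + 196608 * u4 ^ 2 * ((u4 + 16) + u4 ^ 2 * s2)
        + 16777216 * ((u4 + 16) ^ 2 + (u4 + 16) * (u4 ^ 2 * s2) + (u4 ^ 2 * s2) ^ 2)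
        - (jq - 1728) * u4 ^ 4) * h2

/-- `A = u4² + 256 u4 + 4096` (the fibre over `j = 0`) -/
def A4 : LaurentSeries ℚ := u4 ^ 2 + 256 * u4 + 4096

/-- `B = (u4 + 32) (u4² - 512 u4 - 8192)` (the fibre over `j = 1728`) -/
def B4 : LaurentSeries ℚ := (u4 + 32) * (u4 ^ 2 - 512 * u4 - 8192)

theorem A4_ne_zero : A4 ≠ 0 := by
  intro h
  have h1 := jq_mul_u4
  rw [← A4, h, zero_pow (by norm_num)] at h1
  exact mul_ne_zero jq_ne_zero (mul_ne_zero (pow_ne_zero 4 u4_ne_zero) u4_add_ne_zero) h1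

theorem B4_ne_zero : B4 ≠ 0 := by
  intro h
  have h1 := jq_sub_mul_u4
  have h2 : (u4 + 32) ^ 2 * (u4 ^ 2 - 512 * u4 - 8192) ^ 2 = B4 ^ 2 := by rw [B4]; ring
  rw [h2, h, zero_pow (by norm_num)] at h1
  exact mul_ne_zero jq_sub_ne_zero (mul_ne_zero (pow_ne_zero 4 u4_ne_zero) u4_add_ne_zero) h1

/-! ### The derivative -/

theorem theta_pow_succ (f : LaurentSeries ℚ) (n : ℕ) :
    theta (f ^ (n + 1)) = ((n + 1 : ℕ) : LaurentSeries ℚ) * f ^ n * theta f := by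
  induction n with
  | zero => simp
  | succ n ih =>
    rw [pow_succ, theta_mul, ih]
    push_cast
    ring

theorem theta_ofNat_mul (n : ℕ) [n.AtLeastTwo] (f : LaurentSeries ℚ) :
    theta ((OfNat.ofNat n : LaurentSeries ℚ) * f) = OfNat.ofNat n * theta f := by
  rw [theta_mul, theta_ofNat, mul_zero, add_zero]

/-- Implicit differentiation of `j u4⁴ (u4 + 16) = A³`:
`θ(j) u4⁵ (u4 + 16)² = θ(u4) A² B`. -/
theorem theta_jq_mul_u4 :
    theta jq * (u4 ^ 5 * (u4 + 16) ^ 2) = theta u4 * (A4 ^ 2 * B4) := by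
  have hR : jq * (u4 ^ 5 + 16 * u4 ^ 4) = (u4 ^ 2 + 256 * u4 + 4096) ^ 3 := by
    linear_combination jq_mul_u4
  have d := congrArg (theta (K := ℚ)) hR
  rw [theta_mul, map_add, theta_ofNat_mul, theta_pow_succ u4 4, theta_pow_succ u4 3,
    theta_pow_succ _ 2, map_add, map_add, theta_ofNat_mul, theta_pow_succ u4 1,
    theta_ofNat] at d
  push_cast at d
  rw [A4, B4]
  linear_combination (u4 * (u4 + 16)) * d - (5 * u4 + 64) * theta u4 * jq_mul_u4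

/-- **`(θ u4)² u4² E₄² = (u4² + 256 u4 + 4096)² (u4 + 16) Δ`** -/
theorem theta_u4_sq : theta u4 ^ 2 * u4 ^ 2 * E4L ^ 2 = A4 ^ 2 * (u4 + 16) * DeltaL := by
  have hfac : A4 ^ 4 * B4 ^ 2 ≠ 0 :=
    mul_ne_zero (pow_ne_zero 4 A4_ne_zero) (pow_ne_zero 2 B4_ne_zero)
  have hR : jq * (u4 ^ 4 * (u4 + 16)) = A4 ^ 3 := jq_mul_u4
  have hR' : (jq - 1728) * (u4 ^ 4 * (u4 + 16)) = B4 ^ 2 := by
    rw [jq_sub_mul_u4, B4]
    ring
  refine mul_right_cancel₀ hfac ?_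
  calc theta u4 ^ 2 * u4 ^ 2 * E4L ^ 2 * (A4 ^ 4 * B4 ^ 2)
      = (theta u4 * (A4 ^ 2 * B4)) ^ 2 * u4 ^ 2 * E4L ^ 2 := by ring
    _ = (theta jq * (u4 ^ 5 * (u4 + 16) ^ 2)) ^ 2 * u4 ^ 2 * E4L ^ 2 := by rw [theta_jq_mul_u4]
    _ = (theta jq ^ 2 * E4L ^ 2) * (u4 ^ 12 * (u4 + 16) ^ 4) := by ring
    _ = (jq ^ 2 * (jq - 1728) * DeltaL) * (u4 ^ 12 * (u4 + 16) ^ 4) := by rw [theta_jq_sq]
    _ = (jq * (u4 ^ 4 * (u4 + 16))) ^ 2 * ((jq - 1728) * (u4 ^ 4 * (u4 + 16)))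
        * (u4 + 16) * DeltaL := by ring
    _ = (A4 ^ 3) ^ 2 * B4 ^ 2 * (u4 + 16) * DeltaL := by rw [hR, hR']
    _ = A4 ^ 2 * (u4 + 16) * DeltaL * (A4 ^ 4 * B4 ^ 2) := by ring

/-- **`(θ u4)¹² = u4⁴ (u4 + 16)¹⁰ Δ²`**: the weight-two form `θ u4` has no zero or pole on the
upper half plane. -/
theorem theta_u4_pow : theta u4 ^ 12 = u4 ^ 4 * (u4 + 16) ^ 10 * DeltaL ^ 2 := by
  have hfac : u4 ^ 12 * A4 ^ 12 * DeltaL ^ 4 ≠ 0 :=
    mul_ne_zero (mul_ne_zero (pow_ne_zero 12 u4_ne_zero) (pow_ne_zero 12 A4_ne_zero))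
      (pow_ne_zero 4 DeltaL_ne_zero)
  have hR : jq * (u4 ^ 4 * (u4 + 16)) = A4 ^ 3 := jq_mul_u4
  have hE : E4L ^ 3 = jq * DeltaL := jq_mul_emb_deltaQ.symm
  refine mul_right_cancel₀ hfac ?_
  calc theta u4 ^ 12 * (u4 ^ 12 * A4 ^ 12 * DeltaL ^ 4)
      = theta u4 ^ 12 * u4 ^ 12 * (A4 ^ 3) ^ 4 * DeltaL ^ 4 := by ring
    _ = theta u4 ^ 12 * u4 ^ 12 * (jq * (u4 ^ 4 * (u4 + 16))) ^ 4 * DeltaL ^ 4 := by rw [hR]
    _ = (theta u4 ^ 2 * u4 ^ 2 * E4L ^ 2) ^ 6 * (u4 ^ 16 * (u4 + 16) ^ 4) := by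
      have : (jq * (u4 ^ 4 * (u4 + 16))) ^ 4 * DeltaL ^ 4
          = (E4L ^ 3) ^ 4 * (u4 ^ 16 * (u4 + 16) ^ 4) := by
        rw [hE]
        ring
      calc theta u4 ^ 12 * u4 ^ 12 * (jq * (u4 ^ 4 * (u4 + 16))) ^ 4 * DeltaL ^ 4
          = theta u4 ^ 12 * u4 ^ 12 * ((jq * (u4 ^ 4 * (u4 + 16))) ^ 4 * DeltaL ^ 4) := by ring
        _ = theta u4 ^ 12 * u4 ^ 12 * ((E4L ^ 3) ^ 4 * (u4 ^ 16 * (u4 + 16) ^ 4)) := by rw [this]
        _ = (theta u4 ^ 2 * u4 ^ 2 * E4L ^ 2) ^ 6 * (u4 ^ 16 * (u4 + 16) ^ 4) := by ring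
    _ = (A4 ^ 2 * (u4 + 16) * DeltaL) ^ 6 * (u4 ^ 16 * (u4 + 16) ^ 4) := by rw [theta_u4_sq]
    _ = u4 ^ 4 * (u4 + 16) ^ 10 * DeltaL ^ 2 * (u4 ^ 12 * A4 ^ 12 * DeltaL ^ 4) := by ring

/-! ### Membership in the function field -/

/-- `q ↦ q ^ d` maps the function field of level `N` into that of level `d N`. -/
theorem qExpand_mem_full {N : ℕ} [NeZero N] (d : ℕ) [NeZero d] {x : LaurentSeries ℚ}
    (hx : x ∈ modularFunctionFieldFull N) : qExpand ℚ d x ∈ modularFunctionFieldFull (d * N) := by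
  have h1 : (modularFunctionFieldFull N).map (qExpandₐ d) ≤ modularFunctionFieldFull (d * N) := by
    rw [modularFunctionFieldFull, IntermediateField.adjoin_map, modularFunctionFieldFull]
    refine IntermediateField.adjoin.mono ℚ _ _ ?_
    rintro _ ⟨y, ⟨e, hne, hdvd, rfl⟩, rfl⟩
    haveI := hne
    refine ⟨d * e, inferInstance, Nat.mul_dvd_mul_left d hdvd, ?_⟩
    rw [qExpandₐ_apply, qExpand_qExpand]
  exact h1 ⟨x, hx, rfl⟩

theorem s4_mem_full (M : ℕ) [NeZero M] (h : 4 ∣ M) : s4 ∈ modularFunctionFieldFull M := by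
  have h2 : s2 ∈ modularFunctionFieldFull 2 :=
    modularFunctionField_le_full 2 Fermat.Agent.S30.Haupt.MemTwo.s2_mem
  have h4 : qExpand ℚ 2 s2 ∈ modularFunctionFieldFull (2 * 2) := qExpand_mem_full 2 h2
  exact full_degeneracy_le (show 2 * 2 ∣ M from h) h4

/-- **`u4` lies in the function field of `X₀(M)` for `4 ∣ M`.** -/
theorem u4_mem_full (M : ℕ) [NeZero M] (h : 4 ∣ M) : u4 ∈ modularFunctionFieldFull M := by
  have hs2 : s2 ∈ modularFunctionFieldFull M :=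
    Fermat.Agent.S30.Haupt.MemTwo.s2_mem_full M (Dvd.dvd.trans (by norm_num) h)
  have hs4 := s4_mem_full M h
  have hn (n : ℕ) [n.AtLeastTwo] : (OfNat.ofNat n : LaurentSeries ℚ) ∈ modularFunctionFieldFull M :=
    ofNat_mem _ n
  rw [u4, den4]
  exact div_mem (sub_mem hs2 (mul_mem (hn _) hs4))
    (mul_mem hs4 (add_mem (one_mem _) (mul_mem (hn _) hs2)))

/-! ### Integrality: `u4 = q⁻¹ · (unit of ℤ⟦q⟧)` -/

/-- the unit part of `s2`: `s2 = q V2` -/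
def V2 : PowerSeries ℤ := pexp 2 dedekindEtaUnit * dedekindEtaUnitInv

theorem constantCoeff_V2 : constantCoeff V2 = 1 := constantCoeff_s2Z_unit

/-- the unit `V2(q²) (1 + 16 q V2)` -/
def W4 : PowerSeries ℤ := pexp 2 V2 * (1 + 16 * X * V2)

theorem constantCoeff_W4 : constantCoeff W4 = 1 := by
  rw [W4, map_mul, constantCoeff_pexp, constantCoeff_V2, map_add, map_mul, map_mul,
    constantCoeff_X]
  simp

theorem W4_mul_inv : W4 * W4.invOfUnit 1 = 1 :=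
  PowerSeries.mul_invOfUnit _ _ (by rw [constantCoeff_W4]; rfl)

/-- **The integral `q`-expansion of `q · u4`.** -/
def u4Z : PowerSeries ℤ := (V2 - 16 * X * pexp 2 V2) * W4.invOfUnit 1

theorem constantCoeff_u4Z : constantCoeff u4Z = 1 := by
  have h := congrArg (constantCoeff (R := ℤ)) W4_mul_inv
  rw [map_mul, constantCoeff_W4, one_mul, map_one] at h
  rw [u4Z, map_mul, h, mul_one, map_sub, constantCoeff_V2, map_mul, map_mul, constantCoeff_X]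
  simp

/-- **`u4 = q⁻¹ · u4Z`** with `u4Z ∈ ℤ⟦q⟧`, `u4Z(0) = 1`. -/
theorem u4_eq : u4 = HahnSeries.single (-1 : ℤ) (1 : ℚ)
    * Graded.emb (u4Z.map (Int.castRingHom ℚ)) := by
  set V : PowerSeries ℚ := V2.map (Int.castRingHom ℚ) with hV
  set W : PowerSeries ℚ := pexp 2 V with hW
  set I : PowerSeries ℚ := (W4.invOfUnit 1).map (Int.castRingHom ℚ) with hI
  have hs2 : s2 = Graded.emb (X * V) := by
    rw [s2_eq_emb, s2Z, map_mul, PowerSeries.map_X]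
    rfl
  have hs4 : s4 = Graded.emb (X ^ 2 * W) := by
    rw [s4, hs2, ← emb_pexp, pexp_mul, pexp_X]
  have hu : u4Z.map (Int.castRingHom ℚ) = (V - 16 * X * W) * I := by
    rw [u4Z, map_mul, map_sub, map_mul, map_mul, PowerSeries.map_X, ← pexp_map, map_ofNat]
  have hW4 : W4.map (Int.castRingHom ℚ) = W * (1 + 16 * X * V) := by
    rw [W4, map_mul, map_add, map_one, map_mul, map_mul, PowerSeries.map_X, ← pexp_map,
      map_ofNat]
  have hWI : (W * (1 + 16 * X * V)) * I = 1 := by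
    rw [← hW4, hI, ← map_mul, W4_mul_inv, map_one]
  have hX : HahnSeries.single (-1 : ℤ) (1 : ℚ) * Graded.emb (X ^ 2) = Graded.emb X := by
    rw [map_pow, HahnSeries.ofPowerSeries_X, pow_two, ← mul_assoc, HahnSeries.single_mul_single]
    simp
  have key : (V - 16 * X * W) * I * (X ^ 2 * W * (1 + 16 * (X * V)))
      = X ^ 2 * (V - 16 * X * W) := by
    linear_combination (X ^ 2 * (V - 16 * X * W)) * hWI
  rw [u4, div_eq_iff den4_ne_zero, den4, hs2, hs4, hu]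
  calc Graded.emb (X * V) - 16 * Graded.emb (X ^ 2 * W)
      = Graded.emb X * Graded.emb (V - 16 * X * W) := by
        simp only [map_mul, map_sub, map_pow, map_ofNat]
        ring
    _ = HahnSeries.single (-1 : ℤ) (1 : ℚ) * Graded.emb (X ^ 2)
          * Graded.emb (V - 16 * X * W) := by rw [hX]
    _ = HahnSeries.single (-1 : ℤ) (1 : ℚ)
          * Graded.emb ((V - 16 * X * W) * I * (X ^ 2 * W * (1 + 16 * (X * V)))) := by
        rw [key, map_mul]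
        ring
    _ = HahnSeries.single (-1 : ℤ) (1 : ℚ) * Graded.emb ((V - 16 * X * W) * I)
          * (Graded.emb (X ^ 2 * W) * (1 + 16 * Graded.emb (X * V))) := by
        simp only [map_mul, map_add, map_one, map_ofNat, map_pow, map_sub]
        ring

end Fermat.Agent.S36.Coord.Four
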