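import Mathlib
import Fermat.Agent.S36.Haupt4.Defs
import Fermat.Agent.S36.QFormalB
import Fermat.Agent.S36.Coord.Four

/-!
# S36, coordinate package: the `θ`-identity for `Haupt4.u4` over every coefficient ring

* `u4_eq : Coord.Four.u4 = Haupt4.u4 ℚ` (both are `(t₂(q²) - 16 t₂)/(t₂ + 16)`);
* `theta_u4_pow (K) : (θ u₄)¹² = u₄⁴ (u₄ + 16)¹⁰ Δ²` in `K((q))` for every commutative ring `K`
  (`θ = QFormalB.theta`, `Δ = deltaK K = q ∏ (1 - qⁿ)²⁴`), in particular in characteristic `q`;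
* `theta_jq_sq (K) : (θ j)² E₄² = j² (j - 1728) Δ` in `K((q))`.
-/

set_option autoImplicit false

noncomputable section

namespace Fermat.Agent.S36.Coord.Bridge4

open PowerSeries ModularCurve
open Fermat.Agent.S28.SturmDep Fermat.Agent.S28.SturmMF
open Fermat.Agent.S30.AuxLevel Fermat.Agent.S30.Haupt.Two
open Fermat.Agent.S36.Coord.Theta Fermat.Agent.S36.Coord.ThetaJ Fermat.Agent.S36.Coord.Four

/-- `Δ = q ∏ (1 - qⁿ)²⁴` as a Laurent series over `K`. -/
def deltaK (K : Type*) [CommRing K] : LaurentSeries K := em K DZ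

/-- `E₄` as a Laurent series over `K`. -/
def e4K (K : Type*) [CommRing K] : LaurentSeries K := em K EZ

theorem coeffMap_deltaK {K K' : Type*} [CommRing K] [CommRing K'] (f : K →+* K') :
    coeffMap f (deltaK K) = deltaK K' := coeffMap_em f DZ

theorem coeffMap_e4K {K K' : Type*} [CommRing K] [CommRing K'] (f : K →+* K') :
    coeffMap f (e4K K) = e4K K' := coeffMap_em f EZ

theorem deltaK_rat : deltaK ℚ = DeltaL := emb_deltaQ.symm

/-- `t₂ · s₂ = 1`. -/
theorem t2_mul_s2 : t2 ℚ * s2 = 1 := by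
  have h1 : t2 ℚ * qExpand ℚ 2 DeltaL = DeltaL := by
    rw [DeltaL, emb_deltaQ, qExpand_em, ex_DZ, t2, t2Num, DZ_eq]
    have hx := xinv_mul_em_X ℚ
    have hU := congrArg (em ℚ) (ex_UZ_mul_ex_VZ 2)
    simp only [map_mul, map_pow, map_one] at hU ⊢
    linear_combination (em ℚ X * em ℚ UZ) * hx + (xinv ℚ * em ℚ X ^ 2 * em ℚ UZ) * hU
  have h2 : (t2 ℚ * s2 - 1) * DeltaL = 0 := by
    linear_combination t2 ℚ * s2_mul + h1
  rcases mul_eq_zero.mp h2 with h | h
  · exact sub_eq_zero.mp h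
  · exact absurd h DeltaL_ne_zero

/-- **The two definitions of `u₄` agree.** -/
theorem u4_eq : Four.u4 = Haupt4.u4 ℚ := by
  have hts := t2_mul_s2
  have hts' : qExpand ℚ 2 (t2 ℚ) * s4 = 1 := by
    have h := congrArg (qExpand ℚ 2) hts
    rwa [map_mul, map_one] at h
  have hH := Haupt4.u4_mul_t2 ℚ
  rw [Four.u4, div_eq_iff den4_ne_zero, den4]
  linear_combination (-(s2 * s4)) * hH - s2 * hts' + (16 * s4 + Haupt4.u4 ℚ * s4) * hts

theorem theta_eq (f : LaurentSeries ℚ) : Theta.theta f = QFormalB.theta f := by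
  ext n
  rw [theta_coeff, QFormalB.coeff_theta]

theorem coeffMap_int_injective :
    Function.Injective (coeffMap (Int.castRingHom ℚ)) := by
  intro x y h
  ext n
  have h1 := congrArg (fun z : LaurentSeries ℚ => z.coeff n) h
  simpa using h1

theorem theta_u4_pow_rat :
    QFormalB.theta (Haupt4.u4 ℚ) ^ 12
      = Haupt4.u4 ℚ ^ 4 * (Haupt4.u4 ℚ + 16) ^ 10 * deltaK ℚ ^ 2 := by
  rw [← u4_eq, ← theta_eq, deltaK_rat]
  exact Four.theta_u4_pow

theorem theta_u4_pow_int :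
    QFormalB.theta (Haupt4.u4 ℤ) ^ 12
      = Haupt4.u4 ℤ ^ 4 * (Haupt4.u4 ℤ + 16) ^ 10 * deltaK ℤ ^ 2 := by
  apply coeffMap_int_injective
  rw [map_pow, QFormalB.coeffMap_theta, map_mul, map_mul, map_pow, map_pow, map_pow, map_add,
    map_ofNat, Haupt4.coeffMap_u4, coeffMap_deltaK]
  exact theta_u4_pow_rat

/-- **`(θ u₄)¹² = u₄⁴ (u₄ + 16)¹⁰ Δ²` over every commutative ring.** -/
theorem theta_u4_pow (K : Type*) [CommRing K] :
    QFormalB.theta (Haupt4.u4 K) ^ 12
      = Haupt4.u4 K ^ 4 * (Haupt4.u4 K + 16) ^ 10 * deltaK K ^ 2 := by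
  have h := congrArg (coeffMap (Int.castRingHom K)) theta_u4_pow_int
  rwa [map_pow, QFormalB.coeffMap_theta, map_mul, map_mul, map_pow, map_pow, map_pow, map_add,
    map_ofNat, Haupt4.coeffMap_u4, coeffMap_deltaK] at h

end Fermat.Agent.S36.Coord.Bridge4
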