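import Mathlib
import Fermat.Agent.S36.Haupt9.Defs
import Fermat.Agent.S36.QFormalB
import Fermat.Agent.S36.Coord.Bridge4

/-!
# S36, coordinate package: the `θ`-identity for `Haupt9.u9` over every coefficient ring

`u = u₉ = Haupt9.u9` (the Hauptmodul of `Γ₀(9)`, the coordinate for `q = 2`), `W = u² + 9u + 27`,
`C = u³ + 243u² + 2187u + 6561`, `R = u⁶ - 486u³W - 19683W²`:

* `jq_mul_u9      : j · u⁹ W = (u + 9)³ C³`            (helper208's relation),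
* `jq_sub_mul_u9  : (j - 1728) · u⁹ W = R²`,
* `theta_jq_mul_u9 : θ(j) · u¹⁰ W² = θ(u) · (u + 9)² C² R`   (implicit differentiation),
* `theta_u9_sq    : (θ u)² u⁷ E₄² = (u + 9)² C² W Δ`,
* `theta_u9_pow (K) : (θ u₉)¹² u₉⁶ = (u₉² + 9u₉ + 27)¹⁰ Δ²` in `K((q))` for every commutative
  ring `K` (`θ = QFormalB.theta`, `Δ = Bridge4.deltaK K`): the weight-two form `θ u₉` has no zero
  on the upper half plane, and on the finite `u₉`-chart it vanishes exactly over the cusps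
  `u₉² + 9u₉ + 27 = 0` (and has the pole of `Δ²/u⁶` over the cusp `u₉ = 0`).

The `u₉`-twin of `Coord/Four.lean` + `Coord/Bridge4.lean`.
-/

set_option autoImplicit false

noncomputable section

namespace Fermat.Agent.S36.Coord.Nine

open PowerSeries ModularCurve
open Fermat.Agent.S28.SturmDep Fermat.Agent.S28.SturmMF
open Fermat.Agent.S30.AuxLevel Fermat.Agent.S30.Haupt.Two
open Fermat.Agent.S36.Coord.Theta Fermat.Agent.S36.Coord.ThetaJ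

/-- `u₉` over `ℚ`. -/
abbrev u9 : LaurentSeries ℚ := Haupt9.u9 ℚ

/-- `W = u² + 9u + 27` (the two cusps `≠ 0, ∞`) -/
def W9 : LaurentSeries ℚ := u9 ^ 2 + 9 * u9 + 27

/-- `C = u³ + 243u² + 2187u + 6561` -/
def C9 : LaurentSeries ℚ := u9 ^ 3 + 243 * u9 ^ 2 + 2187 * u9 + 6561

/-- `R = u⁶ - 486u³W - 19683W²` (the fibre over `j = 1728`) -/
def R9 : LaurentSeries ℚ := u9 ^ 6 - 486 * u9 ^ 3 * W9 - 19683 * W9 ^ 2

theorem lead_u9 : Lead u9 (-1) 1 :=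
  ⟨Haupt9.coeff_u9_neg_one ℚ, fun _ hn => Haupt9.coeff_u9_of_lt ℚ hn⟩

theorem u9_ne_zero : u9 ≠ 0 := lead_u9.ne_zero one_ne_zero

theorem W9_ne_zero : W9 ≠ 0 := by
  intro h
  have h1 : t3 ℚ * W9 = u9 ^ 3 := Haupt9.t3_mul_u9 ℚ
  rw [h, mul_zero] at h1
  exact pow_ne_zero 3 u9_ne_zero h1.symm

/-- **`j u⁹ W = (u + 9)³ C³`** -/
theorem jq_mul_u9 : jq * (u9 ^ 9 * W9) = (u9 + 9) ^ 3 * C9 ^ 3 := by
  have h : jq * u9 ^ 9 * (u9 ^ 2 + 9 * u9 + 27)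
      = (u9 + 9) ^ 3 * (u9 ^ 3 + 243 * u9 ^ 2 + 2187 * u9 + 6561) ^ 3 := Haupt9.jq_mul_u9 ℚ
  rw [W9, C9]
  linear_combination h

/-- **`(j - 1728) u⁹ W = R²`** -/
theorem jq_sub_mul_u9 : (jq - 1728) * (u9 ^ 9 * W9) = R9 ^ 2 := by
  have h := jq_mul_u9
  rw [W9, C9] at h
  rw [R9, W9]
  linear_combination h

theorem PC9_ne_zero : (u9 + 9) ^ 3 * C9 ^ 3 ≠ 0 := by
  rw [← jq_mul_u9]
  exact mul_ne_zero jq_ne_zero (mul_ne_zero (pow_ne_zero 9 u9_ne_zero) W9_ne_zero)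

theorem u9_add_ne_zero : u9 + 9 ≠ 0 := by
  intro h
  have h1 := PC9_ne_zero
  rw [h, zero_pow (by norm_num), zero_mul] at h1
  exact h1 rfl

theorem C9_ne_zero : C9 ≠ 0 := by
  intro h
  have h1 := PC9_ne_zero
  rw [h, zero_pow (by norm_num), mul_zero] at h1
  exact h1 rfl

theorem R9_ne_zero : R9 ≠ 0 := by
  intro h
  have h1 := jq_sub_mul_u9
  rw [h, zero_pow (by norm_num)] at h1
  exact mul_ne_zero jq_sub_ne_zero (mul_ne_zero (pow_ne_zero 9 u9_ne_zero) W9_ne_zero) h1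

/-! ### The derivative -/

theorem theta_pow_succ (f : LaurentSeries ℚ) (n : ℕ) :
    theta (f ^ (n + 1)) = ((n + 1 : ℕ) : LaurentSeries ℚ) * f ^ n * theta f := by
  induction n with
  | zero => simp
  | succ n ih =>
    rw [pow_succ, theta_mul, ih]
    push_cast
    ring

theorem theta_ofNat_mul (n : ℕ) [n.AtLeastTwo] (f : LaurentSeries ℚ) :
    theta ((OfNat.ofNat n : LaurentSeries ℚ) * f) = OfNat.ofNat n * theta f := by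
  rw [theta_mul, theta_ofNat, mul_zero, add_zero]

/-- Implicit differentiation of `j u⁹ W = (u + 9)³ C³`:
`θ(j) u¹⁰ W² = θ(u) (u + 9)² C² R`. -/
theorem theta_jq_mul_u9 :
    theta jq * (u9 ^ 10 * W9 ^ 2) = theta u9 * ((u9 + 9) ^ 2 * C9 ^ 2 * R9) := by
  have h0 := jq_mul_u9
  rw [W9, C9] at h0
  have hR : jq * (u9 ^ 11 + 9 * u9 ^ 10 + 27 * u9 ^ 9)
      = (u9 ^ 4 + 252 * u9 ^ 3 + 4374 * u9 ^ 2 + 26244 * u9 + 59049) ^ 3 := by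
    linear_combination h0
  have d := congrArg (theta (K := ℚ)) hR
  rw [theta_mul, map_add, map_add, theta_ofNat_mul, theta_ofNat_mul, theta_pow_succ u9 10,
    theta_pow_succ u9 9, theta_pow_succ u9 8, theta_pow_succ _ 2, map_add, map_add, map_add,
    map_add, theta_ofNat_mul, theta_ofNat_mul, theta_ofNat_mul, theta_pow_succ u9 3,
    theta_pow_succ u9 2, theta_pow_succ u9 1, theta_ofNat] at d
  push_cast at d
  rw [R9, C9, W9]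
  linear_combination (u9 * (u9 ^ 2 + 9 * u9 + 27)) * d
    - (11 * u9 ^ 2 + 90 * u9 + 243) * theta u9 * h0

/-- **`(θ u)² u⁷ E₄² = (u + 9)² C² W Δ`** -/
theorem theta_u9_sq :
    theta u9 ^ 2 * u9 ^ 7 * E4L ^ 2 = (u9 + 9) ^ 2 * C9 ^ 2 * W9 * DeltaL := by
  have hfac : (u9 + 9) ^ 4 * C9 ^ 4 * R9 ^ 2 ≠ 0 :=
    mul_ne_zero (mul_ne_zero (pow_ne_zero 4 u9_add_ne_zero) (pow_ne_zero 4 C9_ne_zero))
      (pow_ne_zero 2 R9_ne_zero)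
  refine mul_right_cancel₀ hfac ?_
  calc theta u9 ^ 2 * u9 ^ 7 * E4L ^ 2 * ((u9 + 9) ^ 4 * C9 ^ 4 * R9 ^ 2)
      = (theta u9 * ((u9 + 9) ^ 2 * C9 ^ 2 * R9)) ^ 2 * u9 ^ 7 * E4L ^ 2 := by ring
    _ = (theta jq * (u9 ^ 10 * W9 ^ 2)) ^ 2 * u9 ^ 7 * E4L ^ 2 := by rw [theta_jq_mul_u9]
    _ = (theta jq ^ 2 * E4L ^ 2) * (u9 ^ 27 * W9 ^ 4) := by ring
    _ = (jq ^ 2 * (jq - 1728) * DeltaL) * (u9 ^ 27 * W9 ^ 4) := by rw [theta_jq_sq]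
    _ = (jq * (u9 ^ 9 * W9)) ^ 2 * ((jq - 1728) * (u9 ^ 9 * W9)) * W9 * DeltaL := by ring
    _ = ((u9 + 9) ^ 3 * C9 ^ 3) ^ 2 * R9 ^ 2 * W9 * DeltaL := by
      rw [jq_mul_u9, jq_sub_mul_u9]
    _ = (u9 + 9) ^ 2 * C9 ^ 2 * W9 * DeltaL * ((u9 + 9) ^ 4 * C9 ^ 4 * R9 ^ 2) := by ring

/-- **`(θ u₉)¹² u₉⁶ = (u₉² + 9u₉ + 27)¹⁰ Δ²`** in `ℚ((q))`. -/
theorem theta_u9_pow_aux : theta u9 ^ 12 * u9 ^ 6 = W9 ^ 10 * DeltaL ^ 2 := by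
  have hfac : u9 ^ 36 * ((u9 + 9) ^ 3 * C9 ^ 3) ^ 4 * DeltaL ^ 4 ≠ 0 :=
    mul_ne_zero (mul_ne_zero (pow_ne_zero 36 u9_ne_zero) (pow_ne_zero 4 PC9_ne_zero))
      (pow_ne_zero 4 DeltaL_ne_zero)
  have hE : E4L ^ 3 = jq * DeltaL := jq_mul_emb_deltaQ.symm
  refine mul_right_cancel₀ hfac ?_
  calc theta u9 ^ 12 * u9 ^ 6 * (u9 ^ 36 * ((u9 + 9) ^ 3 * C9 ^ 3) ^ 4 * DeltaL ^ 4)
      = theta u9 ^ 12 * u9 ^ 42 * (((u9 + 9) ^ 3 * C9 ^ 3) ^ 4 * DeltaL ^ 4) := by ring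
    _ = theta u9 ^ 12 * u9 ^ 42 * ((jq * (u9 ^ 9 * W9)) ^ 4 * DeltaL ^ 4) := by rw [jq_mul_u9]
    _ = theta u9 ^ 12 * u9 ^ 42 * ((jq * DeltaL) ^ 4 * (u9 ^ 36 * W9 ^ 4)) := by ring
    _ = theta u9 ^ 12 * u9 ^ 42 * ((E4L ^ 3) ^ 4 * (u9 ^ 36 * W9 ^ 4)) := by rw [hE]
    _ = (theta u9 ^ 2 * u9 ^ 7 * E4L ^ 2) ^ 6 * (u9 ^ 36 * W9 ^ 4) := by ring
    _ = ((u9 + 9) ^ 2 * C9 ^ 2 * W9 * DeltaL) ^ 6 * (u9 ^ 36 * W9 ^ 4) := by rw [theta_u9_sq]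
    _ = W9 ^ 10 * DeltaL ^ 2 * (u9 ^ 36 * ((u9 + 9) ^ 3 * C9 ^ 3) ^ 4 * DeltaL ^ 4) := by ring

/-! ### Every coefficient ring -/

theorem theta_u9_pow_rat :
    QFormalB.theta (Haupt9.u9 ℚ) ^ 12 * Haupt9.u9 ℚ ^ 6
      = (Haupt9.u9 ℚ ^ 2 + 9 * Haupt9.u9 ℚ + 27) ^ 10 * Bridge4.deltaK ℚ ^ 2 := by
  rw [← Bridge4.theta_eq, Bridge4.deltaK_rat]
  exact theta_u9_pow_aux

theorem theta_u9_pow_int :
    QFormalB.theta (Haupt9.u9 ℤ) ^ 12 * Haupt9.u9 ℤ ^ 6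
      = (Haupt9.u9 ℤ ^ 2 + 9 * Haupt9.u9 ℤ + 27) ^ 10 * Bridge4.deltaK ℤ ^ 2 := by
  apply Bridge4.coeffMap_int_injective
  rw [map_mul, map_pow, QFormalB.coeffMap_theta, map_pow, map_mul, map_pow, map_add, map_add,
    map_pow, map_mul, map_ofNat, map_ofNat, map_pow, Haupt9.coeffMap_u9, Bridge4.coeffMap_deltaK]
  exact theta_u9_pow_rat

/-- **`(θ u₉)¹² u₉⁶ = (u₉² + 9u₉ + 27)¹⁰ Δ²` over every commutative ring.** -/
theorem theta_u9_pow (K : Type*) [CommRing K] :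
    QFormalB.theta (Haupt9.u9 K) ^ 12 * Haupt9.u9 K ^ 6
      = (Haupt9.u9 K ^ 2 + 9 * Haupt9.u9 K + 27) ^ 10 * Bridge4.deltaK K ^ 2 := by
  have h := congrArg (coeffMap (Int.castRingHom K)) theta_u9_pow_int
  rwa [map_mul, map_pow, QFormalB.coeffMap_theta, map_pow, map_mul, map_pow, map_add, map_add,
    map_pow, map_mul, map_ofNat, map_ofNat, map_pow, Haupt9.coeffMap_u9,
    Bridge4.coeffMap_deltaK] at h

end Fermat.Agent.S36.Coord.Nine
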