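import Mathlib
import Fermat.Prelude.Def_ModularCurve_X0

/-!
# S36 / C10 (coordinate package), part A: the derivation `θ = q d/dq` on Laurent series

For any commutative ring `R`:

* `theta : LaurentSeries R → LaurentSeries R`, `(θ f)_n = n · f_n`;
* `thetaDer : Derivation R (LaurentSeries R) (LaurentSeries R)` (Leibniz rule `theta_mul`);
* `theta_ofPowerSeries` : `θ` of a power series `a` is `X · a'`;
* `theta_qExpand` : `θ (f(q^d)) = d · (θ f)(q^d)`;
* `theta_map` : compatibility with change of coefficients;
* `theta_psi` : if `f(q^p) - f^p = p · Ψ` and `p` is a non-zero-divisor, then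
  `θ Ψ = (θ f)(q^p) - f^(p-1) · θ f`.

Mathlib + the Prelude substitution `qExpand` only.
-/

set_option autoImplicit false

noncomputable section

namespace Fermat.Agent.S36.Coord

open HahnSeries ModularCurve

variable {R : Type*} [CommRing R]

/-- `θ = q d/dq` on Laurent series: `(θ f)_n = n · f_n`. -/
def theta (f : LaurentSeries R) : LaurentSeries R where
  coeff n := (n : R) * f.coeff n
  isPWO_support' := f.isPWO_support.mono fun n hn => by
    rw [Function.mem_support] at hn
    exact fun h => hn (by rw [h, mul_zero])

@[simp]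
theorem coeff_theta (f : LaurentSeries R) (n : ℤ) : (theta f).coeff n = (n : R) * f.coeff n := rfl

theorem support_theta_subset (f : LaurentSeries R) : (theta f).support ⊆ f.support := by
  intro n hn
  rw [HahnSeries.mem_support] at hn ⊢
  exact fun h => hn (by rw [coeff_theta, h, mul_zero])

@[simp]
theorem theta_zero : theta (0 : LaurentSeries R) = 0 := by
  ext n; simp

theorem theta_add (f g : LaurentSeries R) : theta (f + g) = theta f + theta g := by
  ext n; simp [mul_add]

theorem theta_neg (f : LaurentSeries R) : theta (-f) = -theta f := by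
  ext n; simp

theorem theta_sub (f g : LaurentSeries R) : theta (f - g) = theta f - theta g := by
  ext n; simp [mul_sub]

theorem theta_smul (r : R) (f : LaurentSeries R) : theta (r • f) = r • theta f := by
  ext n; simp [mul_left_comm]

theorem theta_single (n : ℤ) (r : R) : theta (single n r) = single n ((n : R) * r) := by
  ext m
  rw [coeff_theta, coeff_single, coeff_single]
  split_ifs with h
  · rw [h]
  · rw [mul_zero]

@[simp]
theorem theta_C (r : R) : theta (HahnSeries.C r : LaurentSeries R) = 0 := by
  rw [HahnSeries.C_apply, theta_single]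
  simp

@[simp]
theorem theta_one : theta (1 : LaurentSeries R) = 0 := by
  rw [← map_one (HahnSeries.C (Γ := ℤ) (R := R)), theta_C]

/-- **Leibniz rule.** -/
theorem theta_mul (f g : LaurentSeries R) : theta (f * g) = theta f * g + f * theta g := by
  ext n
  rw [coeff_theta, coeff_add, HahnSeries.coeff_mul,
    HahnSeries.coeff_mul_left' f.isPWO_support (support_theta_subset f),
    HahnSeries.coeff_mul_right' g.isPWO_support (support_theta_subset g),
    Finset.mul_sum, ← Finset.sum_add_distrib]
  refine Finset.sum_congr rfl fun ij hij => ?_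
  have h : ij.1 + ij.2 = n := (Finset.mem_antidiagonal.mp hij).2.2
  rw [coeff_theta, coeff_theta, ← h]
  push_cast
  ring

theorem algebraMap_eq_C (r : R) : algebraMap R (LaurentSeries R) r = HahnSeries.C r := by
  rw [HahnSeries.algebraMap_apply', PowerSeries.algebraMap_apply, Algebra.algebraMap_self,
    RingHom.id_apply, ofPowerSeries_C]

theorem theta_algebraMap (r : R) : theta (algebraMap R (LaurentSeries R) r) = 0 := by
  rw [algebraMap_eq_C, theta_C]

/-- `θ` as a derivation. -/
def thetaDer : Derivation R (LaurentSeries R) (LaurentSeries R) where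
  toFun := theta
  map_add' := theta_add
  map_smul' r f := by
    rw [RingHom.id_apply, Algebra.smul_def, theta_mul, theta_algebraMap, zero_mul, zero_add,
      algebraMap_eq_C, HahnSeries.C_mul_eq_smul]
  map_one_eq_zero' := theta_one
  leibniz' f g := by
    show theta (f * g) = f • theta g + g • theta f
    rw [theta_mul, smul_eq_mul, smul_eq_mul]
    ring

@[simp]
theorem thetaDer_apply (f : LaurentSeries R) : thetaDer f = theta f := rfl

theorem theta_pow (f : LaurentSeries R) (n : ℕ) :
    theta (f ^ n) = (n : LaurentSeries R) * f ^ (n - 1) * theta f := by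
  have h := Derivation.leibniz_pow (thetaDer (R := R)) f n
  rw [thetaDer_apply, thetaDer_apply, smul_eq_mul, nsmul_eq_mul] at h
  rw [h, mul_assoc]

theorem theta_natCast (n : ℕ) : theta (n : LaurentSeries R) = 0 := by
  exact Derivation.map_natCast (thetaDer (R := R)) n

theorem theta_ofNat (n : ℕ) [n.AtLeastTwo] : theta (OfNat.ofNat n : LaurentSeries R) = 0 :=
  theta_natCast n

theorem theta_intCast (n : ℤ) : theta (n : LaurentSeries R) = 0 := by
  exact Derivation.map_intCast (thetaDer (R := R)) n

/-- `θ` of a power series `a` is `X · a'`. -/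
theorem theta_ofPowerSeries (a : PowerSeries R) :
    theta (ofPowerSeries ℤ R a) = ofPowerSeries ℤ R (PowerSeries.X * PowerSeries.derivative R a) := by
  ext n
  rw [coeff_theta]
  rcases lt_or_ge n 0 with hn | hn
  · rw [ofPowerSeries_coeff_of_neg _ hn, ofPowerSeries_coeff_of_neg _ hn, mul_zero]
  · obtain ⟨m, rfl⟩ := Int.eq_ofNat_of_zero_le hn
    rw [ofPowerSeries_apply_coeff, ofPowerSeries_apply_coeff]
    cases m with
    | zero => simp
    | succ m =>
      rw [PowerSeries.coeff_succ_X_mul, PowerSeries.coeff_derivative]
      push_cast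
      ring

/-- `θ` commutes with change of coefficients. -/
theorem theta_map {S : Type*} [CommRing S] (φ : R →+* S) (f : LaurentSeries R) :
    theta (f.map φ) = (theta f).map φ := by
  ext n
  simp [HahnSeries.map_coeff]

/-- `θ (f(q^d)) = d · (θ f)(q^d)`. -/
theorem theta_qExpand (d : ℕ) [NeZero d] (f : LaurentSeries R) :
    theta (qExpand R d f) = (d : LaurentSeries R) * qExpand R d (theta f) := by
  have hd : (d : LaurentSeries R) = HahnSeries.C (d : R) := by simp
  ext n
  rw [coeff_theta, hd, HahnSeries.C_mul_eq_smul, HahnSeries.coeff_smul, smul_eq_mul]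
  by_cases hn : (d : ℤ) ∣ n
  · obtain ⟨m, rfl⟩ := hn
    rw [qExpand_coeff_mul, qExpand_coeff_mul, coeff_theta]
    push_cast
    ring
  · rw [qExpand_coeff_of_not_dvd d _ hn, qExpand_coeff_of_not_dvd d _ hn, mul_zero, mul_zero]

/-- **Formal `Ψ`-lemma.**  If `f(q^p) - f^p = p · Ψ` and `p` is a non-zero-divisor on Laurent
series, then `θ Ψ = (θ f)(q^p) - f^(p-1) · θ f`. -/
theorem theta_psi (p : ℕ) [NeZero p] (f Ψ : LaurentSeries R)
    (hp : ∀ x : LaurentSeries R, (p : LaurentSeries R) * x = 0 → x = 0)
    (h : qExpand R p f - f ^ p = (p : LaurentSeries R) * Ψ) :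
    theta Ψ = qExpand R p (theta f) - f ^ (p - 1) * theta f := by
  have h1 := congrArg theta h
  rw [theta_sub, theta_qExpand, theta_pow, theta_mul, theta_natCast, zero_mul, zero_add] at h1
  have h2 : (p : LaurentSeries R) * (theta Ψ - (qExpand R p (theta f) - f ^ (p - 1) * theta f))
      = 0 := by
    rw [mul_sub, ← h1]
    ring
  exact sub_eq_zero.mp (hp _ h2)

end Fermat.Agent.S36.Coord
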