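import Mathlib
import Fermat.Agent.Lib.Ramanujan
import Fermat.Agent.S24.QBridge
import Fermat.Agent.S24.JDeriv.Serre

/-!
# S36 / C10 (coordinate package), part B1: Ramanujan's differential equations, formally

Analytic bridge: termwise differentiation of `q`-expansions (`HasQExp.deriv`), and the resulting
identity of integral power series (`E = E₄`, `Δ = X ∏ (1 - Xⁿ)²⁴`, `ϑ = X d/dX`)

  `(3 · ϑE · Δ - E · ϑΔ)² = Δ² (E³ - 1728 Δ)`          (`ramanujan_formal`)

which is the square of `3 ϑE₄ Δ - E₄ ϑΔ = -E₆ Δ` (Ramanujan's equations for `E₄`, `Δ`), written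
without `E₂`, `E₆`.
-/

set_option autoImplicit false

noncomputable section

namespace Fermat.Agent.S36.Coord

open Filter Topology UpperHalfPlane ModularForm EisensteinSeries Derivative Function
open Fermat.Agent.S24.QBridge
open scoped MatrixGroups

local notation "𝕢" => Periodic.qParam
local notation "Δ" => ModularForm.discriminant

/-! ### More closure properties of `HasQExp` -/

theorem hasQExp_add {a b : PowerSeries ℂ} {g h : ℂ → ℂ} (ha : HasQExp a g) (hb : HasQExp b h) :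
    HasQExp (a + b) (fun q => g q + h q) := by
  intro q hq
  have := (ha q hq).add (hb q hq)
  simpa [add_mul] using this

theorem hasQExp_neg {a : PowerSeries ℂ} {g : ℂ → ℂ} (ha : HasQExp a g) :
    HasQExp (-a) (fun q => -g q) := by
  intro q hq
  have := (ha q hq).neg
  simpa using this

theorem hasQExp_sub {a b : PowerSeries ℂ} {g h : ℂ → ℂ} (ha : HasQExp a g) (hb : HasQExp b h) :
    HasQExp (a - b) (fun q => g q - h q) := by
  intro q hq
  have := (ha q hq).sub (hb q hq)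
  simpa [sub_mul] using this

theorem hasQExp_C (c : ℂ) : HasQExp (PowerSeries.C c) (fun _ => c) := by
  intro q _
  have h := hasSum_ite_eq (0 : ℕ) c
  convert h using 2 with n
  by_cases hn : n = 0
  · subst hn; simp
  · simp [PowerSeries.coeff_C, hn]

theorem hasQExp_Xvar : HasQExp PowerSeries.X (fun q => q) := by
  intro q _
  have h := hasSum_ite_eq (1 : ℕ) (q : ℂ)
  convert h using 2 with n
  by_cases hn : n = 1
  · subst hn; simp
  · simp [PowerSeries.coeff_X, hn]

/-- **Termwise differentiation.** -/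
theorem hasQExp_deriv {a : PowerSeries ℂ} {g : ℂ → ℂ} (ha : HasQExp a g) :
    HasQExp (PowerSeries.derivative ℂ a) (deriv g) := by
  intro q hq
  have hp := ha.hasFPowerSeriesOnBall
  have hq' : q ∈ Metric.eball (0 : ℂ) 1 := by
    rw [← ENNReal.coe_one, Metric.eball_coe, NNReal.coe_one, mem_ball_zero_iff]
    exact hq
  have h1 := hp.fderiv.hasSum hq'
  have h2 := (ContinuousLinearMap.apply ℂ ℂ (1 : ℂ)).hasSum h1
  rw [zero_add] at h2
  have h3 : (ContinuousLinearMap.apply ℂ ℂ (1 : ℂ)) (fderiv ℂ g q) = deriv g q := by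
    simp
  rw [h3] at h2
  have hfun : (fun n : ℕ => PowerSeries.coeff n (PowerSeries.derivative ℂ a) * q ^ n) =
      fun b => (ContinuousLinearMap.apply ℂ ℂ (1 : ℂ))
        (((FormalMultilinearSeries.ofScalars ℂ fun n => (PowerSeries.coeff n) a).derivSeries b)
          fun _ => q) := by
    funext n
    rw [FormalMultilinearSeries.apply_eq_pow_smul_coeff]
    simp only [ContinuousLinearMap.apply_apply, smul_apply,
      FormalMultilinearSeries.derivSeries_coeff_one, FormalMultilinearSeries.coeff_ofScalars,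
      PowerSeries.coeff_derivative, smul_eq_mul, nsmul_eq_mul]
    push_cast
    ring
  rw [hfun]
  exact h2

/-- `q d/dq`. -/
theorem hasQExp_qderiv {a : PowerSeries ℂ} {g : ℂ → ℂ} (ha : HasQExp a g) :
    HasQExp (PowerSeries.X * PowerSeries.derivative ℂ a) (fun q => q * deriv g q) :=
  hasQExp_Xvar.mul (hasQExp_deriv ha)

/-! ### The cusp functions of `E₄` and `Δ` -/

/-- `Δ = X ∏ (1 - Xⁿ)²⁴` with complex coefficients. -/
def deltaC : PowerSeries ℂ := PowerSeries.X * etaUnitC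

theorem hasQExp_delta : HasQExp deltaC (cuspFunction 1 Δ) := by
  refine (hasQExp_Xvar.mul hasQExp_etaUnitC).congr fun q hq => ?_
  have hq' : q ∈ Metric.ball (0 : ℂ) 1 := by simpa using hq
  have h1 : cuspFunction 1 Δ q = q * ∏' i : ℕ, (1 - q ^ (i + 1)) ^ 24 :=
    discriminant_cuspFunction_eqOn hq'
  rw [h1, (ModularForm.multipliable_one_sub_pow hq).tprod_pow 24]

theorem periodic_E4 : Periodic ((E₄ : ℍ → ℂ) ∘ ofComplex) (1 : ℝ) :=
  SlashInvariantFormClass.periodic_comp_ofComplex E₄ one_mem_strictPeriods_SL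

theorem periodic_delta : Periodic ((Δ : ℍ → ℂ) ∘ ofComplex) (1 : ℝ) :=
  SlashInvariantFormClass.periodic_comp_ofComplex CuspForm.discriminant one_mem_strictPeriods_SL

theorem cusp_E4 (τ : ℍ) : cuspFunction 1 E₄ (𝕢 1 τ) = E₄ τ := by
  have h := Fermat.Agent.S24.JDeriv.comp_ofComplex_eq periodic_E4 (τ : ℂ)
  rw [← h]
  simp

theorem cusp_delta (τ : ℍ) : cuspFunction 1 Δ (𝕢 1 τ) = Δ τ := by
  have h := Fermat.Agent.S24.JDeriv.comp_ofComplex_eq periodic_delta (τ : ℂ)
  rw [← h]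
  simp

theorem qderiv_E4 (τ : ℍ) : 𝕢 1 τ * deriv (cuspFunction 1 E₄) (𝕢 1 τ) = D E₄ τ :=
  (Fermat.Agent.S24.JDeriv.D_eq_qParam_mul_deriv periodic_E4 (ModularFormClass.holo E₄)
    (ModularFormClass.bdd_at_infty E₄) τ).symm

theorem qderiv_delta (τ : ℍ) : 𝕢 1 τ * deriv (cuspFunction 1 Δ) (𝕢 1 τ) = D Δ τ :=
  (Fermat.Agent.S24.JDeriv.D_eq_qParam_mul_deriv periodic_delta
    Fermat.Agent.Lib.Ramanujan.mdifferentiable_discriminant
    (ModularFormClass.bdd_at_infty CuspForm.discriminant) τ).symm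

/-- The function identity behind `ramanujan_formal`. -/
theorem ramanujan_fun (τ : ℍ) :
    (3 * D E₄ τ * Δ τ - E₄ τ * D Δ τ) ^ 2 = Δ τ ^ 2 * (E₄ τ ^ 3 - 1728 * Δ τ) := by
  rw [Fermat.Agent.Lib.Ramanujan.ramanujan_E4, Fermat.Agent.Lib.Ramanujan.ramanujan_Delta]
  have h := discriminant_eq_E₄_cube_sub_E₆_sq τ
  have h1 : (1728 : ℂ) * Δ τ = E₄ τ ^ 3 - E₆ τ ^ 2 := by
    rw [h]; ring
  rw [h1]
  ring

/-- Ramanujan, over `ℂ⟦X⟧`. -/
theorem ramanujan_formalC :
    (3 * (PowerSeries.X * PowerSeries.derivative ℂ e4C) * deltaC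
        - e4C * (PowerSeries.X * PowerSeries.derivative ℂ deltaC)) ^ 2
      = deltaC ^ 2 * (e4C ^ 3 - PowerSeries.C 1728 * deltaC) := by
  have hE := hasQExp_E4
  have hD := hasQExp_delta
  have hL := (hasQExp_sub (((hasQExp_C 3).mul (hasQExp_qderiv hE)).mul hD)
    (hE.mul (hasQExp_qderiv hD))).pow 2
  have hR := (hD.pow 2).mul (hasQExp_sub (hE.pow 3) ((hasQExp_C 1728).mul hD))
  have hC3 : (PowerSeries.C (3 : ℂ)) = 3 := map_ofNat _ 3
  rw [hC3] at hL
  refine hL.unique (hR.congr fun q hq => ?_)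
  by_cases hq0 : q = 0
  · have h0 : cuspFunction 1 Δ 0 = 0 := by
      have := discriminant_cuspFunction_eqOn (Metric.mem_ball_self one_pos)
      simpa using this
    subst hq0
    simp [h0]
  · have him := Periodic.im_invQParam_pos_of_norm_lt_one one_pos hq hq0
    set τ : ℍ := ⟨_, him⟩ with hτ
    have hqτ : 𝕢 1 (τ : ℂ) = q := Periodic.qParam_right_inv one_ne_zero hq0
    have e1 := cusp_E4 τ
    have e2 := cusp_delta τ
    have e3 := qderiv_E4 τ
    have e4 := qderiv_delta τ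
    rw [hqτ] at e1 e2 e3 e4
    show cuspFunction 1 Δ q ^ 2 * (cuspFunction 1 E₄ q ^ 3 - 1728 * cuspFunction 1 Δ q)
      = (3 * (q * deriv (cuspFunction 1 E₄) q) * cuspFunction 1 Δ q
          - cuspFunction 1 E₄ q * (q * deriv (cuspFunction 1 Δ) q)) ^ 2
    rw [e1, e2, e3, e4]
    exact (ramanujan_fun τ).symm

/-- `E₄ ∈ ℤ⟦X⟧`. -/
abbrev Ez : PowerSeries ℤ := ModularCurve.eisenstein4

/-- `Δ = X ∏ (1 - Xⁿ)²⁴ ∈ ℤ⟦X⟧`. -/
def Dz : PowerSeries ℤ := PowerSeries.X * ModularCurve.dedekindEtaUnit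

/-- `ϑ = X d/dX` on `ℤ⟦X⟧`. -/
def vth (a : PowerSeries ℤ) : PowerSeries ℤ := PowerSeries.X * PowerSeries.derivative ℤ a

theorem map_derivative_intCast (a : PowerSeries ℤ) :
    PowerSeries.map (Int.castRingHom ℂ) (PowerSeries.derivative ℤ a)
      = PowerSeries.derivative ℂ (PowerSeries.map (Int.castRingHom ℂ) a) := by
  ext n
  simp [PowerSeries.coeff_derivative]

/-- **Ramanujan's equations, formal integral form**:
`(3 ϑE₄ · Δ - E₄ · ϑΔ)² = Δ² (E₄³ - 1728 Δ)` in `ℤ⟦X⟧`. -/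
theorem ramanujan_formal :
    (3 * vth Ez * Dz - Ez * vth Dz) ^ 2 = Dz ^ 2 * (Ez ^ 3 - 1728 * Dz) := by
  apply PowerSeries.map_injective (Int.castRingHom ℂ) Int.cast_injective
  have hE : PowerSeries.map (Int.castRingHom ℂ) Ez = e4C := rfl
  have hD : PowerSeries.map (Int.castRingHom ℂ) Dz = deltaC := by
    rw [Dz, map_mul, PowerSeries.map_X]; rfl
  have h := ramanujan_formalC
  have hC : (PowerSeries.C (1728 : ℂ)) = 1728 := map_ofNat _ 1728
  rw [hC] at h
  simp only [vth, map_pow, map_sub, map_mul, map_ofNat, PowerSeries.map_X,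
    map_derivative_intCast, hE, hD]
  exact h

end Fermat.Agent.S36.Coord
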