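import Mathlib
import Fermat.Agent.S30.AuxLevel.Haupt
import Fermat.Agent.S36.Coord.Theta
import Fermat.Agent.S36.Coord.ThetaBridge

/-!
# S36 / C10 (coordinate package), part B2: the `θ`-identities of the coordinate functions

`θ = q d/dq`, `Δ = q ∏ (1 - qⁿ)²⁴`, all in `K((q))` for an arbitrary commutative ring `K`
(`deltaL K`, `jqModC K`, `AuxLevel.t2 K`, `AuxLevel.t3 K`):

* `theta_jq_sq`      : `(θ j)² = E₄ · j · (j - 1728)`
* `theta_jq_pow_six` : `(θ j)⁶ = j⁴ (j - 1728)³ Δ`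
* `theta_t2_pow_six` : `(θ t₂)⁶ = t₂⁴ (t₂ + 64)³ Δ`
* `theta_t3_pow_six` : `(θ t₃)⁶ = t₃³ (t₃ + 27)⁴ Δ`

and their squares `(θ h)¹² = R_h Δ²` (`theta_jq_pow_twelve`, …).  The first two come from
Ramanujan's equations (`ramanujan_formal`), the last two from the first by differentiating
`j t₂² = (t₂ + 256)³` and `j t₃³ = (t₃ + 27)(t₃ + 243)³`.
-/

set_option autoImplicit false

noncomputable section

namespace Fermat.Agent.S36.Coord

open ModularCurve PowerSeries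
open Fermat.Agent.S30.AuxLevel

/-! ### `ϑ = X d/dX` on `ℤ⟦X⟧` -/

theorem vth_add (a b : PowerSeries ℤ) : vth (a + b) = vth a + vth b := by
  rw [vth, vth, vth, map_add, mul_add]

theorem vth_sub (a b : PowerSeries ℤ) : vth (a - b) = vth a - vth b := by
  rw [vth, vth, vth, map_sub, mul_sub]

theorem vth_mul (a b : PowerSeries ℤ) : vth (a * b) = vth a * b + a * vth b := by
  rw [vth, vth, vth, Derivation.leibniz, smul_eq_mul, smul_eq_mul]
  ring

theorem vth_X : vth (X : PowerSeries ℤ) = X := by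
  rw [vth, PowerSeries.derivative_X, mul_one]

theorem vth_pow (a : PowerSeries ℤ) (n : ℕ) : vth (a ^ n) = (n : PowerSeries ℤ) * a ^ (n - 1) * vth a := by
  rw [vth, vth, Derivation.leibniz_pow, smul_eq_mul, nsmul_eq_mul]
  ring

theorem vth_natCast_mul (n : ℕ) (a : PowerSeries ℤ) : vth ((n : PowerSeries ℤ) * a) = (n : PowerSeries ℤ) * vth a := by
  rw [vth_mul]
  have h : vth (n : PowerSeries ℤ) = 0 := by
    rw [vth, Derivation.map_natCast, mul_zero]
  rw [h, zero_mul, zero_add]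

/-! ### The identities in `ℤ⟦X⟧` -/

theorem jNum_mul_UZ : jNum * UZ = Ez ^ 3 := by
  rw [jNum, mul_assoc, mul_comm dedekindEtaUnitInv, UZ_mul_VZ, mul_one]

theorem Dz_eq : Dz = X * UZ := rfl

theorem Dz_ne_zero : Dz ≠ 0 := by
  intro h
  have h1 := congrArg (PowerSeries.coeff (0 + 1)) h
  rw [Dz, PowerSeries.coeff_succ_X_mul, PowerSeries.coeff_zero_eq_constantCoeff,
    constantCoeff_dedekindEtaUnit] at h1
  simp at h1

/-- `(ϑJ - J) Δ² = X E² (3 ϑE Δ - E ϑΔ)`, `J = jNum`. -/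
theorem vth_jNum_mul :
    (vth jNum - jNum) * Dz ^ 2 = X * Ez ^ 2 * (3 * vth Ez * Dz - Ez * vth Dz) := by
  have hJD : jNum * Dz = X * Ez ^ 3 := by
    rw [Dz_eq]
    linear_combination X * jNum_mul_UZ
  have h1 := congrArg vth hJD
  rw [vth_mul, vth_mul, vth_X, vth_pow] at h1
  norm_num at h1
  linear_combination Dz * h1 - (vth Dz + Dz) * hJD

/-- `(ϑJ - J)² = E₄ · J · (J - 1728 X)`. -/
theorem vth_jNum_sq : (vth jNum - jNum) ^ 2 = Ez * jNum * (jNum - 1728 * X) := by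
  have hB : ((vth jNum - jNum) * Dz ^ 2) ^ 2 = X ^ 2 * Ez ^ 4 * (Dz ^ 2 * (Ez ^ 3 - 1728 * Dz)) := by
    rw [vth_jNum_mul, ← ramanujan_formal]
    ring
  have hJU := jNum_mul_UZ
  have hC : Dz ^ 4 * (vth jNum - jNum) ^ 2 = Dz ^ 4 * (Ez * jNum * (jNum - 1728 * X)) := by
    rw [Dz_eq] at hB ⊢
    linear_combination hB - (X ^ 4 * UZ ^ 2 * Ez * (jNum * UZ + Ez ^ 3 - 1728 * X * UZ)) * hJU
  exact mul_left_cancel₀ (pow_ne_zero 4 Dz_ne_zero) hC

/-- `(ϑJ - J)⁶ = J⁴ (J - 1728 X)³ U`. -/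
theorem vth_jNum_pow_six :
    (vth jNum - jNum) ^ 6 = jNum ^ 4 * (jNum - 1728 * X) ^ 3 * UZ := by
  have h := vth_jNum_sq
  have hJU := jNum_mul_UZ
  calc (vth jNum - jNum) ^ 6 = ((vth jNum - jNum) ^ 2) ^ 3 := by ring
    _ = (Ez * jNum * (jNum - 1728 * X)) ^ 3 := by rw [h]
    _ = jNum ^ 4 * (jNum - 1728 * X) ^ 3 * UZ := by
      linear_combination (-(jNum ^ 3 * (jNum - 1728 * X) ^ 3)) * hJU

theorem ne_zero_of_constantCoeff {a : PowerSeries ℤ} (h : PowerSeries.constantCoeff a = 1) :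
    a ≠ 0 := by
  intro h0
  rw [h0, map_zero] at h
  exact zero_ne_one h

/-- `(ϑT - T)⁶ = T⁴ (T + 64 X)³ U`, `T = t2Num`. -/
theorem vth_t2Num_pow_six :
    (vth t2Num - t2Num) ^ 6 = t2Num ^ 4 * (t2Num + 64 * X) ^ 3 * UZ := by
  have rel := jNum_mul_t2Num_sq
  have hd := congrArg vth rel
  rw [vth_mul, vth_pow, vth_pow, vth_add, show (256 : PowerSeries ℤ) = ((256 : ℕ) : PowerSeries ℤ) by norm_num,
    vth_natCast_mul, vth_X] at hd
  norm_num at hd
  have hab : (vth jNum - jNum) * t2Num ^ 3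
      = (vth t2Num - t2Num) * (t2Num + 256 * X) ^ 2 * (t2Num - 512 * X) := by
    linear_combination t2Num * hd - (3 * t2Num + 2 * (vth t2Num - t2Num)) * rel
  have hrel2 : (jNum - 1728 * X) * t2Num ^ 2 = (t2Num + 64 * X) * (t2Num - 512 * X) ^ 2 := by
    linear_combination rel
  have hP : (t2Num + 256 * X) ^ 12 * (t2Num - 512 * X) ^ 6 ≠ 0 := by
    refine mul_ne_zero (pow_ne_zero _ (ne_zero_of_constantCoeff ?_))
      (pow_ne_zero _ (ne_zero_of_constantCoeff ?_))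
    · simp [constantCoeff_t2Num]
    · simp [constantCoeff_t2Num]
  refine mul_left_cancel₀ hP ?_
  calc (t2Num + 256 * X) ^ 12 * (t2Num - 512 * X) ^ 6 * (vth t2Num - t2Num) ^ 6
      = ((vth t2Num - t2Num) * (t2Num + 256 * X) ^ 2 * (t2Num - 512 * X)) ^ 6 := by ring
    _ = ((vth jNum - jNum) * t2Num ^ 3) ^ 6 := by rw [hab]
    _ = (vth jNum - jNum) ^ 6 * t2Num ^ 18 := by ring
    _ = jNum ^ 4 * (jNum - 1728 * X) ^ 3 * UZ * t2Num ^ 18 := by rw [vth_jNum_pow_six]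
    _ = t2Num ^ 4 * (jNum * t2Num ^ 2) ^ 4 * ((jNum - 1728 * X) * t2Num ^ 2) ^ 3 * UZ := by ring
    _ = t2Num ^ 4 * ((t2Num + 256 * X) ^ 3) ^ 4 * ((t2Num + 64 * X) * (t2Num - 512 * X) ^ 2) ^ 3
          * UZ := by rw [rel, hrel2]
    _ = (t2Num + 256 * X) ^ 12 * (t2Num - 512 * X) ^ 6
          * (t2Num ^ 4 * (t2Num + 64 * X) ^ 3 * UZ) := by ring

/-- `(ϑT - T)⁶ = T³ (T + 27 X)⁴ U`, `T = t3Num`. -/
theorem vth_t3Num_pow_six :
    (vth t3Num - t3Num) ^ 6 = t3Num ^ 3 * (t3Num + 27 * X) ^ 4 * UZ := by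
  have rel := jNum_mul_t3Num_cube
  have hd := congrArg vth rel
  rw [vth_mul, vth_mul, vth_pow, vth_pow, vth_add, vth_add,
    show (27 : PowerSeries ℤ) = ((27 : ℕ) : PowerSeries ℤ) by norm_num,
    show (243 : PowerSeries ℤ) = ((243 : ℕ) : PowerSeries ℤ) by norm_num,
    vth_natCast_mul, vth_natCast_mul, vth_X] at hd
  norm_num at hd
  have hab : (vth jNum - jNum) * t3Num ^ 4
      = (vth t3Num - t3Num) * (t3Num + 243 * X) ^ 2
          * (t3Num ^ 2 - 486 * X * t3Num - 19683 * X ^ 2) := by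
    linear_combination t3Num * hd - (4 * t3Num + 3 * (vth t3Num - t3Num)) * rel
  have hrel2 : (jNum - 1728 * X) * t3Num ^ 3
      = (t3Num ^ 2 - 486 * X * t3Num - 19683 * X ^ 2) ^ 2 := by
    linear_combination rel
  have hP : (t3Num + 243 * X) ^ 12 * (t3Num ^ 2 - 486 * X * t3Num - 19683 * X ^ 2) ^ 6 ≠ 0 := by
    refine mul_ne_zero (pow_ne_zero _ (ne_zero_of_constantCoeff ?_))
      (pow_ne_zero _ (ne_zero_of_constantCoeff ?_))
    · simp [constantCoeff_t3Num]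
    · simp [constantCoeff_t3Num]
  refine mul_left_cancel₀ hP ?_
  calc (t3Num + 243 * X) ^ 12 * (t3Num ^ 2 - 486 * X * t3Num - 19683 * X ^ 2) ^ 6
        * (vth t3Num - t3Num) ^ 6
      = ((vth t3Num - t3Num) * (t3Num + 243 * X) ^ 2
          * (t3Num ^ 2 - 486 * X * t3Num - 19683 * X ^ 2)) ^ 6 := by ring
    _ = ((vth jNum - jNum) * t3Num ^ 4) ^ 6 := by rw [hab]
    _ = (vth jNum - jNum) ^ 6 * t3Num ^ 24 := by ring
    _ = jNum ^ 4 * (jNum - 1728 * X) ^ 3 * UZ * t3Num ^ 24 := by rw [vth_jNum_pow_six]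
    _ = t3Num ^ 3 * (jNum * t3Num ^ 3) ^ 4 * ((jNum - 1728 * X) * t3Num ^ 3) ^ 3 * UZ := by ring
    _ = t3Num ^ 3 * ((t3Num + 27 * X) * (t3Num + 243 * X) ^ 3) ^ 4
          * ((t3Num ^ 2 - 486 * X * t3Num - 19683 * X ^ 2) ^ 2) ^ 3 * UZ := by rw [rel, hrel2]
    _ = (t3Num + 243 * X) ^ 12 * (t3Num ^ 2 - 486 * X * t3Num - 19683 * X ^ 2) ^ 6
          * (t3Num ^ 3 * (t3Num + 27 * X) ^ 4 * UZ) := by ring

/-! ### Laurent series over an arbitrary commutative ring -/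

section Laurent

variable (K : Type*) [CommRing K]

/-- `Δ = q ∏ (1 - qⁿ)²⁴` in `K((q))`. -/
def deltaL : LaurentSeries K := em K Dz

/-- `E₄` in `K((q))`. -/
def e4L : LaurentSeries K := em K Ez

theorem theta_em (A : PowerSeries ℤ) : theta (em K A) = em K (vth A) := by
  rw [em_apply, theta_ofPowerSeries, em_apply]
  congr 1
  rw [vth, map_mul, PowerSeries.map_X]
  congr 1
  ext n
  simp [PowerSeries.coeff_derivative]

theorem theta_xinv : theta (xinv K) = -xinv K := by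
  rw [xinv, theta_single, ← HahnSeries.single_neg]
  congr 1
  simp

/-- `θ (q⁻¹ A) = q⁻¹ (ϑA - A)`. -/
theorem theta_xinv_mul_em (A : PowerSeries ℤ) :
    theta (xinv K * em K A) = xinv K * em K (vth A - A) := by
  rw [theta_mul, theta_xinv, theta_em, map_sub]
  ring

theorem deltaL_eq : deltaL K = em K X * em K UZ := by
  rw [deltaL, Dz_eq, map_mul]

/-- `(θ j)² = E₄ · j · (j - 1728)`. -/
theorem theta_jq_sq :
    theta (jqModC K) ^ 2 = e4L K * jqModC K * (jqModC K - 1728) := by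
  have h := congrArg (em K) vth_jNum_sq
  simp only [map_pow, map_mul, map_sub, map_ofNat] at h
  have hx := xinv_mul_em_X K
  rw [jqModC_eq, theta_xinv_mul_em, e4L, map_sub]
  linear_combination xinv K ^ 2 * h
    - (1728 * xinv K * em K Ez * em K jNum) * hx

/-- `(θ j)⁶ = j⁴ (j - 1728)³ Δ`. -/
theorem theta_jq_pow_six :
    theta (jqModC K) ^ 6 = jqModC K ^ 4 * (jqModC K - 1728) ^ 3 * deltaL K := by
  have h := congrArg (em K) vth_jNum_pow_six
  simp only [map_pow, map_mul, map_sub, map_ofNat] at h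
  have hx := xinv_mul_em_X K
  have e : jqModC K - 1728 = xinv K * (em K jNum - 1728 * em K X) := by
    rw [jqModC_eq]
    linear_combination (1728 : LaurentSeries K) * hx
  rw [e, jqModC_eq, theta_xinv_mul_em, deltaL_eq, map_sub]
  linear_combination xinv K ^ 6 * h
    - (xinv K ^ 6 * em K jNum ^ 4 * (em K jNum - 1728 * em K X) ^ 3 * em K UZ) * hx

/-- `(θ j)¹² = j⁸ (j - 1728)⁶ Δ²`. -/
theorem theta_jq_pow_twelve :
    theta (jqModC K) ^ 12 = jqModC K ^ 8 * (jqModC K - 1728) ^ 6 * deltaL K ^ 2 := by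
  have h := theta_jq_pow_six K
  calc theta (jqModC K) ^ 12 = (theta (jqModC K) ^ 6) ^ 2 := by ring
    _ = _ := by rw [h]; ring

/-- `(θ t₂)⁶ = t₂⁴ (t₂ + 64)³ Δ`. -/
theorem theta_t2_pow_six :
    theta (t2 K) ^ 6 = t2 K ^ 4 * (t2 K + 64) ^ 3 * deltaL K := by
  have h := congrArg (em K) vth_t2Num_pow_six
  simp only [map_pow, map_mul, map_add, map_sub, map_ofNat] at h
  have hx := xinv_mul_em_X K
  have e : t2 K + 64 = xinv K * (em K t2Num + 64 * em K X) := by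
    rw [t2]
    linear_combination (-64 : LaurentSeries K) * hx
  rw [e, t2, theta_xinv_mul_em, deltaL_eq, map_sub]
  linear_combination xinv K ^ 6 * h
    - (xinv K ^ 6 * em K t2Num ^ 4 * (em K t2Num + 64 * em K X) ^ 3 * em K UZ) * hx

/-- `(θ t₂)¹² = t₂⁸ (t₂ + 64)⁶ Δ²`. -/
theorem theta_t2_pow_twelve :
    theta (t2 K) ^ 12 = t2 K ^ 8 * (t2 K + 64) ^ 6 * deltaL K ^ 2 := by
  have h := theta_t2_pow_six K
  calc theta (t2 K) ^ 12 = (theta (t2 K) ^ 6) ^ 2 := by ring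
    _ = _ := by rw [h]; ring

/-- `(θ t₃)⁶ = t₃³ (t₃ + 27)⁴ Δ`. -/
theorem theta_t3_pow_six :
    theta (t3 K) ^ 6 = t3 K ^ 3 * (t3 K + 27) ^ 4 * deltaL K := by
  have h := congrArg (em K) vth_t3Num_pow_six
  simp only [map_pow, map_mul, map_add, map_sub, map_ofNat] at h
  have hx := xinv_mul_em_X K
  have e : t3 K + 27 = xinv K * (em K t3Num + 27 * em K X) := by
    rw [t3]
    linear_combination (-27 : LaurentSeries K) * hx
  rw [e, t3, theta_xinv_mul_em, deltaL_eq, map_sub]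
  linear_combination xinv K ^ 6 * h
    - (xinv K ^ 6 * em K t3Num ^ 3 * (em K t3Num + 27 * em K X) ^ 4 * em K UZ) * hx

/-- `(θ t₃)¹² = t₃⁶ (t₃ + 27)⁸ Δ²`. -/
theorem theta_t3_pow_twelve :
    theta (t3 K) ^ 12 = t3 K ^ 6 * (t3 K + 27) ^ 8 * deltaL K ^ 2 := by
  have h := theta_t3_pow_six K
  calc theta (t3 K) ^ 12 = (theta (t3 K) ^ 6) ^ 2 := by ring
    _ = _ := by rw [h]; ring

end Laurent

end Fermat.Agent.S36.Coord
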